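/-
Reduction of Weierstrass curves modulo a valuation subring: basic definitions.
-/
import Mathlib.AlgebraicGeometry.EllipticCurve.Affine.Point
import Mathlib.RingTheory.Valuation.ValuationSubring
import Mathlib.RingTheory.LocalRing.ResidueField.Basic

set_option autoImplicit false

noncomputable section

namespace Fermat.Agent.ECRed

open WeierstrassCurve

variable {K : Type*} [Field K] (A : ValuationSubring K)

open scoped Classical in
/-- Reduction modulo a valuation subring, extended by zero outside of it. -/
def red (x : K) : IsLocalRing.ResidueField A :=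
  if hx : x ∈ A then IsLocalRing.residue A ⟨x, hx⟩ else 0

/-- `Ek` is the coefficientwise reduction of `E`, whose coefficients lie in `A`. -/
structure IsReductionOf (E : WeierstrassCurve K)
    (Ek : WeierstrassCurve (IsLocalRing.ResidueField A)) : Prop where
  mem₁ : E.a₁ ∈ A
  mem₂ : E.a₂ ∈ A
  mem₃ : E.a₃ ∈ A
  mem₄ : E.a₄ ∈ A
  mem₆ : E.a₆ ∈ A
  red₁ : red A E.a₁ = Ek.a₁
  red₂ : red A E.a₂ = Ek.a₂
  red₃ : red A E.a₃ = Ek.a₃
  red₄ : red A E.a₄ = Ek.a₄
  red₆ : red A E.a₆ = Ek.a₆

variable (E : WeierstrassCurve K) (Ek : WeierstrassCurve (IsLocalRing.ResidueField A))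

open scoped Classical in
/-- Reduction of points; points not reducing to a nonsingular affine point are sent to `0`. -/
def reduce : E.toAffine.Point → Ek.toAffine.Point
  | .zero => .zero
  | .some x y _ =>
    if h : x ∈ A ∧ Ek.toAffine.Nonsingular (red A x) (red A y) then .some _ _ h.2 else .zero

/-- The point does not reduce to a singular point. -/
def SmoothlyReducing : E.toAffine.Point → Prop
  | .zero => True
  | .some x y _ => x ∈ A → Ek.toAffine.Nonsingular (red A x) (red A y)

/-- The parameter `x / y` on the kernel of reduction (`0` elsewhere). -/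
def tParam : E.toAffine.Point → K
  | .zero => 0
  | .some x y _ => open scoped Classical in if x ∈ A then 0 else x / y

end Fermat.Agent.ECRed
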