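/-
Elementary facts about reduction modulo a valuation subring.
-/
import Fermat.Agent.ECRed.Basic

set_option autoImplicit false

noncomputable section

namespace Fermat.Agent.ECRed

open WeierstrassCurve IsLocalRing

variable {K : Type*} [Field K] {A : ValuationSubring K}

local notation "v" => A.valuation
local notation "ρ" => red A

theorem red_coe (a : A) : ρ (a : K) = residue A a := by
  rw [red, dif_pos a.2]

theorem red_of_mem {x : K} (hx : x ∈ A) : ρ x = residue A ⟨x, hx⟩ := red_coe ⟨x, hx⟩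

theorem val_le_one {x : K} (hx : x ∈ A) : v x ≤ 1 := (A.valuation_le_one_iff x).2 hx

theorem one_lt_val {x : K} : 1 < v x ↔ x ∉ A := by
  rw [← A.valuation_le_one_iff, not_le]

theorem red_add {x y : K} (hx : x ∈ A) (hy : y ∈ A) : ρ (x + y) = ρ x + ρ y := by
  rw [red_of_mem (add_mem hx hy), red_of_mem hx, red_of_mem hy, ← map_add]; rfl

theorem red_sub {x y : K} (hx : x ∈ A) (hy : y ∈ A) : ρ (x - y) = ρ x - ρ y := by
  rw [red_of_mem (sub_mem hx hy), red_of_mem hx, red_of_mem hy, ← map_sub]; rfl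

theorem red_mul {x y : K} (hx : x ∈ A) (hy : y ∈ A) : ρ (x * y) = ρ x * ρ y := by
  rw [red_of_mem (mul_mem hx hy), red_of_mem hx, red_of_mem hy, ← map_mul]; rfl

theorem red_eq_zero_iff {x : K} (hx : x ∈ A) : ρ x = 0 ↔ v x < 1 := by
  rw [red_of_mem hx, residue_eq_zero_iff]
  exact A.valuation_lt_one_iff _

theorem red_ne_zero_iff {x : K} (hx : x ∈ A) : ρ x ≠ 0 ↔ v x = 1 := by
  rw [ne_eq, red_eq_zero_iff hx]
  exact ⟨fun h => le_antisymm (val_le_one hx) (not_lt.1 h), fun h => h ▸ lt_irrefl _⟩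

theorem red_eq_iff {x y : K} (hx : x ∈ A) (hy : y ∈ A) : ρ x = ρ y ↔ v (x - y) < 1 := by
  rw [← red_eq_zero_iff (sub_mem hx hy), red_sub hx hy, sub_eq_zero]

/-- A quotient by a unit of `A` is integral and reduces to the quotient of the reductions. -/
theorem div_mem_of_mul_eq {a b c : K} (ha : a ∈ A) (hb : b ∈ A) (hb1 : ρ b ≠ 0) (h : c * b = a) :
    c ∈ A ∧ ρ c = ρ a / ρ b := by
  have hvb := (red_ne_zero_iff hb).1 hb1
  have hc : c ∈ A := by
    refine A.mem_of_valuation_le_one c ?_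
    have h' := congrArg v h
    rw [map_mul, hvb, mul_one] at h'
    exact h' ▸ val_le_one ha
  exact ⟨hc, by rw [eq_div_iff hb1, ← red_mul hc hb, h]⟩

/-- A quotient of a unit by a non-unit is not integral. -/
theorem not_mem_of_mul_eq {a b c : K} (ha : a ∈ A) (hb : b ∈ A) (ha1 : ρ a ≠ 0) (hb0 : ρ b = 0)
    (h : c * b = a) : c ∉ A := by
  intro hc
  exact ha1 (by rw [← h, red_mul hc hb, hb0, mul_zero])

variable {E : WeierstrassCurve K} {Ek : WeierstrassCurve (ResidueField A)}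

theorem IsReductionOf.exists_model (hE : IsReductionOf A E Ek) :
    ∃ E₀ : WeierstrassCurve A, E₀.map A.subtype = E ∧ E₀.map (residue A) = Ek := by
  refine ⟨⟨⟨E.a₁, hE.mem₁⟩, ⟨E.a₂, hE.mem₂⟩, ⟨E.a₃, hE.mem₃⟩, ⟨E.a₄, hE.mem₄⟩,
    ⟨E.a₆, hE.mem₆⟩⟩, ?_, ?_⟩
  · ext <;> rfl
  · ext
    · exact (red_coe _).symm.trans hE.red₁
    · exact (red_coe _).symm.trans hE.red₂
    · exact (red_coe _).symm.trans hE.red₃
    · exact (red_coe _).symm.trans hE.red₄
    · exact (red_coe _).symm.trans hE.red₆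

theorem isReductionOf_of_model (E₀ : WeierstrassCurve A) :
    IsReductionOf A (E₀.map A.subtype) (E₀.map (residue A)) where
  mem₁ := E₀.a₁.2
  mem₂ := E₀.a₂.2
  mem₃ := E₀.a₃.2
  mem₄ := E₀.a₄.2
  mem₆ := E₀.a₆.2
  red₁ := red_coe _
  red₂ := red_coe _
  red₃ := red_coe _
  red₄ := red_coe _
  red₆ := red_coe _

variable (hE : IsReductionOf A E Ek)

include hE

/-- If the abscissa of a point is integral, so is its ordinate. -/
theorem Y_mem {x y : K} (h : E.toAffine.Equation x y) (hx : x ∈ A) : y ∈ A := by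
  by_contra hy
  have hy1 := one_lt_val.2 hy
  have hR : v (x ^ 3 + E.a₂ * x ^ 2 + E.a₄ * x + E.a₆) ≤ 1 :=
    val_le_one (add_mem (add_mem (add_mem (pow_mem hx 3) (mul_mem hE.mem₂ (pow_mem hx 2)))
      (mul_mem hE.mem₄ hx)) hE.mem₆)
  have hc : v (E.a₁ * x + E.a₃) < v y :=
    lt_of_le_of_lt (val_le_one (add_mem (mul_mem hE.mem₁ hx) hE.mem₃)) hy1
  have heq : y * (y + (E.a₁ * x + E.a₃)) = x ^ 3 + E.a₂ * x ^ 2 + E.a₄ * x + E.a₆ := by
    have h' := (Affine.equation_iff x y).1 h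
    linear_combination h'
  have h2 : v (y * (y + (E.a₁ * x + E.a₃))) = v y * v y := by
    rw [map_mul, Valuation.map_add_eq_of_lt_left _ hc]
  rw [heq] at h2
  exact absurd (h2 ▸ hR) (not_le.2 (one_lt_mul'' hy1 hy1))

theorem negY_mem {x y : K} (hx : x ∈ A) (hy : y ∈ A) : E.toAffine.negY x y ∈ A :=
  sub_mem (sub_mem (neg_mem hy) (mul_mem hE.mem₁ hx)) hE.mem₃

theorem red_negY {x y : K} (hx : x ∈ A) (hy : y ∈ A) :
    ρ (E.toAffine.negY x y) = Ek.toAffine.negY (ρ x) (ρ y) := by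
  obtain ⟨E₀, rfl, rfl⟩ := hE.exists_model
  lift x to A using hx
  lift y to A using hy
  change ρ ((E₀.map A.subtype).toAffine.negY (A.subtype x) (A.subtype y)) = _
  erw [Affine.map_negY, red_coe, red_coe, red_coe, Affine.map_negY]

theorem red_equation {x y : K} (h : E.toAffine.Equation x y) (hx : x ∈ A) :
    Ek.toAffine.Equation (ρ x) (ρ y) := by
  have hy := Y_mem hE h hx
  obtain ⟨E₀, rfl, rfl⟩ := hE.exists_model
  lift x to A using hx
  lift y to A using hy
  rw [red_coe, red_coe]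
  exact ((Affine.map_equation (f := A.subtype) (W := E₀.toAffine) A.subtype_injective x y).1 h).map _

/-- On a nonsingular reduced curve every integral point reduces to a nonsingular point. -/
theorem smoothlyReducing_of_Δ_ne_zero (hΔ : Ek.Δ ≠ 0) (P : E.toAffine.Point) :
    SmoothlyReducing A E Ek P := by
  rcases P with _ | ⟨x, y, h⟩
  · trivial
  · intro hx
    exact (Affine.equation_iff_nonsingular_of_Δ_ne_zero hΔ).1 (red_equation hE h.1 hx)

end Fermat.Agent.ECRed
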