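/-
The kernel of reduction: closure under addition, and the parameter `x / y`.
-/
import Fermat.Agent.ECRed.Lemmas

set_option autoImplicit false

noncomputable section

namespace Fermat.Agent.ECRed

open WeierstrassCurve IsLocalRing

variable {K : Type*} [Field K] {A : ValuationSubring K}
  {E : WeierstrassCurve K} {Ek : WeierstrassCurve (ResidueField A)}

local notation "v" => A.valuation

/-- The point lies in the kernel of reduction (`0`, or non-integral abscissa). -/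
def InKernel (A : ValuationSubring K) (E : WeierstrassCurve K) : E.toAffine.Point → Prop
  | .zero => True
  | .some x _ _ => x ∉ A

theorem tParam_some_of_not_mem {x y : K} (h : E.toAffine.Nonsingular x y) (hx : x ∉ A) :
    tParam A E (.some x y h) = x / y := by
  simp only [tParam]; exact if_neg hx

theorem mul_mem_val {a b : K} {g : A.ValueGroup} (ha : a ∈ A) (hb : v b ≤ g) : v (a * b) ≤ g := by
  rw [map_mul]; exact mul_le_of_le_one_of_le (val_le_one ha) hb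

theorem mul_val_le {a b : K} {g g' : A.ValueGroup} (ha : v a ≤ g) (hb : v b ≤ g') :
    v (a * b) ≤ g * g' := by
  rw [map_mul]; exact mul_le_mul' ha hb

variable (hE : IsReductionOf A E Ek)

include hE

/-- Valuations of the coordinates of a point with non-integral abscissa. -/
theorem val_of_not_mem {x y : K} (h : E.toAffine.Equation x y) (hx : x ∉ A) :
    1 < v x ∧ v x < v y ∧ v y ^ 2 = v x ^ 3 := by
  have h1 : 1 < v x := one_lt_val.2 hx
  have hx3 : v x ^ 2 < v x ^ 3 := pow_lt_pow_right₀ h1 (by norm_num)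
  have hR : v (x ^ 3 + (E.a₂ * x ^ 2 + E.a₄ * x + E.a₆)) = v x ^ 3 := by
    rw [Valuation.map_add_eq_of_lt_left, map_pow]
    rw [map_pow]
    refine lt_of_le_of_lt ?_ hx3
    refine Valuation.map_add_le _ (Valuation.map_add_le _ (mul_mem_val hE.mem₂ (by rw [map_pow]))
      (mul_mem_val hE.mem₄ ?_)) (le_trans (val_le_one hE.mem₆) (one_le_pow₀ h1.le))
    exact le_self_pow₀ h1.le (by norm_num)
  have heq : y ^ 2 + (E.a₁ * x * y + E.a₃ * y) = x ^ 3 + (E.a₂ * x ^ 2 + E.a₄ * x + E.a₆) := by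
    have h' := (Affine.equation_iff x y).1 h
    linear_combination h'
  have hxy : v x < v y := by
    by_contra hle
    have hle : v y ≤ v x := not_lt.1 hle
    have : v (y ^ 2 + (E.a₁ * x * y + E.a₃ * y)) ≤ v x ^ 2 := by
      refine Valuation.map_add_le _ (by rw [map_pow]; exact pow_le_pow_left' hle 2)
        (Valuation.map_add_le _ ?_ (mul_mem_val hE.mem₃ (hle.trans (le_self_pow₀ h1.le (by norm_num)))))
      rw [mul_assoc]
      exact mul_mem_val hE.mem₁ (by rw [map_mul, sq]; exact mul_le_mul' le_rfl hle)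
    rw [heq, hR] at this
    exact absurd this (not_le.2 hx3)
  refine ⟨h1, hxy, ?_⟩
  have hy1 : 1 < v y := h1.trans hxy
  have hL : v (y ^ 2 + (E.a₁ * x * y + E.a₃ * y)) = v y ^ 2 := by
    rw [Valuation.map_add_eq_of_lt_left, map_pow]
    rw [map_pow]
    refine Valuation.map_add_lt _ ?_ ?_
    · rw [mul_assoc]
      refine lt_of_le_of_lt (mul_mem_val hE.mem₁ le_rfl) ?_
      rw [map_mul, sq]
      exact mul_lt_mul_of_pos_right hxy (zero_lt_one.trans hy1)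
    · refine lt_of_le_of_lt (mul_mem_val hE.mem₃ le_rfl) ?_
      exact lt_self_pow₀ hy1 (by norm_num)
  rw [← hL, heq, hR]

/-- The parameters `t = x / y`, `s = 1 / y` of a point of the kernel of reduction. -/
theorem params_of_not_mem {x y : K} (h : E.toAffine.Equation x y) (hx : x ∉ A) :
    x ≠ 0 ∧ y ≠ 0 ∧ v (x / y) < 1 ∧ v (1 / y) = v (x / y) ^ 3 := by
  obtain ⟨h1, h2, h3⟩ := val_of_not_mem hE h hx
  have hx0 : x ≠ 0 := fun h0 => hx (h0 ▸ zero_mem A)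
  have hy0 : y ≠ 0 := fun h0 => by
    rw [h0, map_zero] at h2; exact not_lt_zero h2
  refine ⟨hx0, hy0, ?_, ?_⟩
  · rw [map_div₀, div_lt_one₀ (zero_lt_one.trans (h1.trans h2))]; exact h2
  · have hy : v y ≠ 0 := (Valuation.ne_zero_iff _).2 hy0
    rw [map_div₀, map_div₀, map_one, div_pow, ← h3]
    field_simp

/-- The line through two points of the kernel of reduction is `1 = κ x + ν y` with small `κ`, `ν`. -/
theorem exists_line_params [DecidableEq K] {x₁ x₂ y₁ y₂ : K} (h₁ : E.toAffine.Equation x₁ y₁)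
    (h₂ : E.toAffine.Equation x₂ y₂) (hx₁ : x₁ ∉ A) (hx₂ : x₂ ∉ A)
    (hxy : ¬(x₁ = x₂ ∧ y₁ = E.toAffine.negY x₂ y₂)) {c : A.ValueGroup} (hc : c < 1)
    (hc₁ : v (x₁ / y₁) ≤ c) (hc₂ : v (x₂ / y₂) ≤ c) :
    ∃ κ ν : K, ν ≠ 0 ∧ v κ ≤ c ^ 2 ∧ v ν ≤ c ^ 3 ∧
      E.toAffine.slope x₁ x₂ y₁ y₂ = -κ / ν ∧ κ * x₁ + ν * y₁ = 1 ∧ κ * x₂ + ν * y₂ = 1 := by
  obtain ⟨hx10, hy10, -, hs1⟩ := params_of_not_mem hE h₁ hx₁
  obtain ⟨hx20, hy20, -, hs2⟩ := params_of_not_mem hE h₂ hx₂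
  set t₁ := x₁ / y₁ with ht₁
  set t₂ := x₂ / y₂ with ht₂
  set s₁ := 1 / y₁ with hs₁
  set s₂ := 1 / y₂ with hs₂
  have hs1c : v s₁ ≤ c ^ 3 := hs1 ▸ pow_le_pow_left' hc₁ 3
  have hs2c : v s₂ ≤ c ^ 3 := hs2 ▸ pow_le_pow_left' hc₂ 3
  have hc32 : c ^ 3 ≤ c ^ 2 := pow_le_pow_right_of_le_one' hc.le (by norm_num)
  have hc31 : c ^ 3 ≤ c := by
    simpa using pow_le_pow_right_of_le_one' hc.le (show 1 ≤ 3 by norm_num)
  have hc21 : c ^ 2 ≤ c := by
    simpa using pow_le_pow_right_of_le_one' hc.le (show 1 ≤ 2 by norm_num)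
  have ht1A : t₁ ∈ A := A.mem_of_valuation_le_one _ (hc₁.trans hc.le)
  have ht2A : t₂ ∈ A := A.mem_of_valuation_le_one _ (hc₂.trans hc.le)
  have hs1A : s₁ ∈ A := A.mem_of_valuation_le_one _ (hs1c.trans (pow_le_one' hc.le 3))
  have hs2A : s₂ ∈ A := A.mem_of_valuation_le_one _ (hs2c.trans (pow_le_one' hc.le 3))
  set U : K := 1 + (E.a₁ * t₂ + E.a₃ * (s₁ + s₂) - E.a₂ * (t₂ * t₂) - E.a₄ * (t₂ * (s₁ + s₂))
      - E.a₆ * (s₁ * s₁ + s₁ * s₂ + s₂ * s₂)) with hU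
  set V : K := t₁ * t₁ + t₁ * t₂ + t₂ * t₂ - E.a₁ * s₁ + E.a₂ * (s₁ * (t₁ + t₂))
      + E.a₄ * (s₁ * s₁) with hV
  have hU1 : v U = 1 := by
    refine Valuation.map_one_add_of_lt _ (lt_of_le_of_lt ?_ hc)
    have hss : v (s₁ + s₂) ≤ c := (Valuation.map_add_le _ hs1c hs2c).trans hc31
    refine Valuation.map_sub_le _ (Valuation.map_sub_le _ (Valuation.map_sub_le _
      (Valuation.map_add_le _ (mul_mem_val hE.mem₁ hc₂) (mul_mem_val hE.mem₃ hss))
      (mul_mem_val hE.mem₂ (mul_mem_val ht2A hc₂))) (mul_mem_val hE.mem₄ (mul_mem_val ht2A hss)))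
      (mul_mem_val hE.mem₆ (Valuation.map_add_le _ (Valuation.map_add_le _
        (mul_mem_val hs1A (hs1c.trans hc31)) (mul_mem_val hs1A (hs2c.trans hc31)))
        (mul_mem_val hs2A (hs2c.trans hc31))))
  have hU0 : U ≠ 0 := fun h0 => by rw [h0, map_zero] at hU1; exact zero_ne_one hU1
  have hV2 : v V ≤ c ^ 2 := by
    rw [sq]
    have h3 : c ^ 3 ≤ c * c := by rw [← sq]; exact hc32
    refine Valuation.map_add_le _ (Valuation.map_add_le _ (Valuation.map_sub_le _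
      (Valuation.map_add_le _ (Valuation.map_add_le _ (mul_val_le hc₁ hc₁) (mul_val_le hc₁ hc₂))
        (mul_val_le hc₂ hc₂)) (mul_mem_val hE.mem₁ (hs1c.trans h3)))
      (mul_mem_val hE.mem₂ (mul_val_le (hs1c.trans hc31) (Valuation.map_add_le _ hc₁ hc₂))))
      (mul_mem_val hE.mem₄ (mul_val_le (hs1c.trans hc31) (hs1c.trans hc31)))
  set κ := V / U with hκ
  set ν := s₁ - κ * t₁ with hν
  have hκc : v κ ≤ c ^ 2 := by rw [hκ, map_div₀, hU1, div_one]; exact hV2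
  have hνc : v ν ≤ c ^ 3 := by
    refine Valuation.map_sub_le _ hs1c ?_
    rw [pow_succ]; exact mul_val_le hκc hc₁
  have e₁ : s₁ + E.a₁ * t₁ * s₁ + E.a₃ * s₁ ^ 2 =
      t₁ ^ 3 + E.a₂ * t₁ ^ 2 * s₁ + E.a₄ * t₁ * s₁ ^ 2 + E.a₆ * s₁ ^ 3 := by
    have h' := (Affine.equation_iff x₁ y₁).1 h₁
    rw [ht₁, hs₁]; field_simp; linear_combination h'
  have e₂ : s₂ + E.a₁ * t₂ * s₂ + E.a₃ * s₂ ^ 2 =
      t₂ ^ 3 + E.a₂ * t₂ ^ 2 * s₂ + E.a₄ * t₂ * s₂ ^ 2 + E.a₆ * s₂ ^ 3 := by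
    have h' := (Affine.equation_iff x₂ y₂).1 h₂
    rw [ht₂, hs₂]; field_simp; linear_combination h'
  have hxs₁ : κ * x₁ + ν * y₁ = 1 := by
    rw [hν, ht₁, hs₁]; field_simp; ring
  refine ⟨κ, ν, ?_⟩
  by_cases hx : x₁ = x₂
  · have hy : y₁ ≠ E.toAffine.negY x₂ y₂ := fun h => hxy ⟨hx, h⟩
    have hy12 := Affine.Y_eq_of_Y_ne h₁ h₂ hx hy
    have hts : t₂ = t₁ := by rw [ht₁, ht₂, hx, hy12]
    have hss : s₂ = s₁ := by rw [hs₁, hs₂, hy12]
    have hD : y₁ - E.toAffine.negY x₁ y₁ ≠ 0 := sub_ne_zero.2 (by rwa [← hx, ← hy12] at hy)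
    have hνU : ν * U = -(s₁ ^ 2 * (y₁ - E.toAffine.negY x₁ y₁)) := by
      have hys : y₁ = 1 / s₁ := by rw [hs₁, one_div_one_div]
      have hxs : x₁ = t₁ / s₁ := by rw [ht₁, hs₁]; field_simp
      have hs0 : s₁ ≠ 0 := one_div_ne_zero hy10
      rw [hν, hκ, sub_mul, mul_assoc, mul_comm t₁ U, ← mul_assoc, div_mul_cancel₀ _ hU0,
        Affine.negY, hys, hxs]
      field_simp
      rw [hU, hV, hts, hss]
      linear_combination 3 * e₁
    have hν0 : ν ≠ 0 := fun h0 => by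
      rw [h0, zero_mul, eq_comm, neg_eq_zero] at hνU
      exact mul_ne_zero (pow_ne_zero 2 (one_div_ne_zero hy10)) hD hνU
    refine ⟨hν0, hκc, hνc, ?_, hxs₁, by rw [← hx, ← hy12]; exact hxs₁⟩
    have hV' : κ * U = s₁ ^ 2 * (3 * x₁ ^ 2 + 2 * E.a₂ * x₁ + E.a₄ - E.a₁ * y₁) := by
      rw [hκ, div_mul_cancel₀ _ hU0, hV, hts, ht₁, hs₁]
      field_simp; ring
    rw [Affine.slope_of_Y_ne hx hy, div_eq_div_iff hD hν0]
    have hs0 : (s₁ ^ 2 : K) ≠ 0 := pow_ne_zero 2 (one_div_ne_zero hy10)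
    refine mul_right_cancel₀ hU0 (mul_left_cancel₀ hs0 ?_)
    linear_combination s₁ ^ 2 * (3 * x₁ ^ 2 + 2 * E.a₂ * x₁ + E.a₄ - E.a₁ * y₁) * hνU
      + s₁ ^ 2 * (y₁ - E.toAffine.negY x₁ y₁) * hV'
  · have hκts : (s₁ - s₂) * U = (t₁ - t₂) * V := by
      rw [hU, hV]; linear_combination e₁ - e₂
    have hts : s₁ - s₂ = κ * (t₁ - t₂) := by
      rw [hκ, div_mul_eq_mul_div, eq_div_iff hU0]; linear_combination hκts
    have hxs₂ : κ * x₂ + ν * y₂ = 1 := by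
      have h2 : ν = s₂ - κ * t₂ := by rw [hν]; linear_combination hts
      rw [h2, ht₂, hs₂]; field_simp; ring
    have hν0 : ν ≠ 0 := fun h0 => by
      rw [h0, zero_mul, add_zero] at hxs₁ hxs₂
      exact hx (mul_left_cancel₀ (left_ne_zero_of_mul_eq_one hxs₁) (hxs₁.trans hxs₂.symm))
    refine ⟨hν0, hκc, hνc, ?_, hxs₁, hxs₂⟩
    rw [Affine.slope_of_X_ne hx, div_eq_div_iff (sub_ne_zero.2 hx) hν0]
    linear_combination hxs₁ - hxs₂

/-- Negation changes the parameter by a sign up to second order. -/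
theorem tParam_neg {x y : K} (h : E.toAffine.Nonsingular x y) (hx : x ∉ A) :
    v (tParam A E (-.some x y h) + tParam A E (.some x y h)) ≤ v (x / y) ^ 2 := by
  obtain ⟨hx0, hy0, ht, hs⟩ := params_of_not_mem hE h.1 hx
  obtain ⟨h1, hxy, -⟩ := val_of_not_mem hE h.1 hx
  rw [Affine.Point.neg_some, tParam_some_of_not_mem _ hx, tParam_some_of_not_mem _ hx]
  set c := v (x / y)
  have hn1 : v (E.a₁ * (x / y) + E.a₃ * (1 / y)) ≤ c :=
    Valuation.map_add_le _ (mul_mem_val hE.mem₁ le_rfl)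
      (mul_mem_val hE.mem₃ (by rw [hs]; simpa using pow_le_pow_right_of_le_one' ht.le (show 1 ≤ 3 by norm_num)))
  have hw : v (1 + (E.a₁ * (x / y) + E.a₃ * (1 / y))) = 1 :=
    Valuation.map_one_add_of_lt _ (lt_of_le_of_lt hn1 ht)
  have hw0 : (1 : K) + (E.a₁ * (x / y) + E.a₃ * (1 / y)) ≠ 0 := fun h0 => by
    rw [h0, map_zero] at hw; exact zero_ne_one hw
  have key : x / E.toAffine.negY x y + x / y = x / y * (E.a₁ * (x / y) + E.a₃ * (1 / y)) /
      (1 + (E.a₁ * (x / y) + E.a₃ * (1 / y))) := by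
    have : E.toAffine.negY x y = -(y * (1 + (E.a₁ * (x / y) + E.a₃ * (1 / y)))) := by
      rw [Affine.negY]; field_simp; ring
    rw [this]
    generalize E.a₁ * (x / y) + E.a₃ * (1 / y) = z at hw0 ⊢
    field_simp
    ring
  rw [key, map_div₀, hw, div_one, sq]
  exact mul_val_le le_rfl hn1

variable [DecidableEq K]

/-- The kernel of reduction is closed under addition and the parameter is additive up to second
order. -/
theorem inKernel_add_some {x₁ x₂ y₁ y₂ : K} (h₁ : E.toAffine.Nonsingular x₁ y₁)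
    (h₂ : E.toAffine.Nonsingular x₂ y₂) (hx₁ : x₁ ∉ A) (hx₂ : x₂ ∉ A) {c : A.ValueGroup}
    (hc : c < 1) (hc₁ : v (x₁ / y₁) ≤ c) (hc₂ : v (x₂ / y₂) ≤ c) :
    InKernel A E (.some x₁ y₁ h₁ + .some x₂ y₂ h₂) ∧
      v (tParam A E (.some x₁ y₁ h₁ + .some x₂ y₂ h₂) - (x₁ / y₁ + x₂ / y₂)) ≤ c ^ 2 := by
  by_cases hxy : x₁ = x₂ ∧ y₁ = E.toAffine.negY x₂ y₂
  · rw [Affine.Point.add_of_Y_eq hxy.1 hxy.2]
    refine ⟨trivial, ?_⟩
    have hn := tParam_neg hE h₂ hx₂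
    rw [Affine.Point.neg_some, tParam_some_of_not_mem _ hx₂, tParam_some_of_not_mem _ hx₂] at hn
    change v (0 - (x₁ / y₁ + x₂ / y₂)) ≤ c ^ 2
    rw [zero_sub, Valuation.map_neg, hxy.1, hxy.2]
    exact hn.trans (pow_le_pow_left' hc₂ 2)
  obtain ⟨κ, ν, hν0, hκ, hν, hl, hs₁, hs₂⟩ :=
    exists_line_params hE h₁.1 h₂.1 hx₁ hx₂ hxy hc hc₁ hc₂
  set l := E.toAffine.slope x₁ x₂ y₁ y₂ with hldef
  set x₃ := E.toAffine.addX x₁ x₂ l with hx₃def
  set y₃ := E.toAffine.negAddY x₁ x₂ y₁ l with hy₃def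
  have hs₃ : κ * x₃ + ν * y₃ = 1 := by
    rw [hy₃def, Affine.negAddY, ← hx₃def, hl]; field_simp; linear_combination hs₁
  have hκ1 : v κ < 1 := lt_of_le_of_lt hκ (pow_lt_one' hc (by norm_num))
  have hν1 : v ν < 1 := lt_of_le_of_lt hν (pow_lt_one' hc (by norm_num))
  have he₃ : E.toAffine.Equation x₃ y₃ := Affine.equation_negAdd h₁.1 h₂.1 hxy
  have hx₃ : x₃ ∉ A := by
    intro hx
    have hy := Y_mem hE he₃ hx
    have : v (κ * x₃ + ν * y₃) < 1 := by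
      refine Valuation.map_add_lt _ ?_ ?_ <;> rw [map_mul]
      · exact mul_lt_one_of_lt_of_le hκ1 (val_le_one hx)
      · exact mul_lt_one_of_lt_of_le hν1 (val_le_one hy)
    rw [hs₃, map_one] at this
    exact lt_irrefl _ this
  obtain ⟨hx30, hy30, ht3, hst3⟩ := params_of_not_mem hE he₃ hx₃
  obtain ⟨-, hy10, -, -⟩ := params_of_not_mem hE h₁.1 hx₁
  obtain ⟨-, hy20, -, -⟩ := params_of_not_mem hE h₂.1 hx₂
  have key := Affine.addPolynomial_slope h₁.1 h₂.1 hxy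
  rw [Affine.addPolynomial_eq, neg_inj, Cubic.prod_X_sub_C_eq, Cubic.toPoly_injective] at key
  simp only [Cubic.mk.injEq, true_and] at key
  obtain ⟨hS₁, hS₂, hS₃⟩ := key
  rw [← hldef] at hS₁ hS₂ hS₃
  rw [← hx₃def] at hS₁ hS₂ hS₃
  set W' := E.a₁ * κ + E.a₃ * κ ^ 2 - 3 * E.a₆ * κ ^ 2 * ν - 2 * E.a₄ * κ * ν - E.a₂ * ν with hW'
  set U' := (1 : K) + (E.a₂ * κ + E.a₄ * κ ^ 2 + E.a₆ * κ ^ 3) with hU'
  have hW2 : v W' ≤ c ^ 2 := by
    have hκA : κ ∈ A := A.mem_of_valuation_le_one _ hκ1.le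
    have hνA : ν ∈ A := A.mem_of_valuation_le_one _ hν1.le
    have hν2 : v ν ≤ c ^ 2 := hν.trans (pow_le_pow_right_of_le_one' hc.le (by norm_num))
    refine Valuation.map_sub_le _ (Valuation.map_sub_le _ (Valuation.map_sub_le _
      (Valuation.map_add_le _ (mul_mem_val hE.mem₁ hκ) (mul_mem_val hE.mem₃ ?_)) ?_) ?_)
      (mul_mem_val hE.mem₂ hν2)
    · rw [sq κ]; exact mul_mem_val hκA hκ
    · exact mul_mem_val (mul_mem (mul_mem (natCast_mem A 3) hE.mem₆) (pow_mem hκA 2)) hν2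
    · exact mul_mem_val (mul_mem (mul_mem (natCast_mem A 2) hE.mem₄) hκA) hν2
  have hU1 : v U' = 1 := by
    refine Valuation.map_one_add_of_lt _ (lt_of_le_of_lt ?_ hκ1)
    have hκA : κ ∈ A := A.mem_of_valuation_le_one _ hκ1.le
    refine Valuation.map_add_le _ (Valuation.map_add_le _ (mul_mem_val hE.mem₂ le_rfl)
      (mul_mem_val hE.mem₄ (by rw [sq κ]; exact mul_mem_val hκA le_rfl)))
      (mul_mem_val hE.mem₆ (by rw [pow_succ κ 2]; exact mul_mem_val (pow_mem hκA 2) le_rfl))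
  have hy₁e : y₁ = (1 - κ * x₁) / ν := by rw [eq_div_iff hν0]; linear_combination hs₁
  have hy₂e : y₂ = (1 - κ * x₂) / ν := by rw [eq_div_iff hν0]; linear_combination hs₂
  have hy₃e : y₃ = (1 - κ * x₃) / ν := by rw [eq_div_iff hν0]; linear_combination hs₃
  rw [hl] at hS₁ hS₂ hS₃
  rw [hy₁e] at hS₂ hS₃
  have hsum : (x₁ / y₁ + x₂ / y₂ + x₃ / y₃) * U' = W' := by
    have hnum : (x₁ * y₂ * y₃ + x₂ * y₁ * y₃ + x₃ * y₁ * y₂) * ν ^ 3 = W' := by
      rw [hy₁e, hy₂e, hy₃e, hW']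
      field_simp at hS₁ hS₂ hS₃ ⊢
      linear_combination (norm := (field_simp; ring1)) hS₁ / ν + 2 * κ * hS₂ / ν + 3 * κ ^ 2 * hS₃ / ν
    have hden : (y₁ * y₂ * y₃) * ν ^ 3 = U' := by
      rw [hy₁e, hy₂e, hy₃e, hU']
      field_simp at hS₁ hS₂ hS₃ ⊢
      linear_combination (norm := (field_simp; ring1))
        -κ * hS₁ / ν ^ 2 - κ ^ 2 * hS₂ / ν ^ 2 - κ ^ 3 * hS₃ / ν ^ 2
    rw [← hnum, ← hden]
    field_simp
  have hd : v (x₁ / y₁ + x₂ / y₂ + x₃ / y₃) ≤ c ^ 2 := by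
    have h' := congrArg v hsum
    rw [map_mul, hU1, mul_one] at h'
    exact h' ▸ hW2
  have hc21 : c ^ 2 ≤ c := by
    simpa using pow_le_pow_right_of_le_one' hc.le (show 1 ≤ 2 by norm_num)
  have ht3c : v (x₃ / y₃) ≤ c := by
    have : x₃ / y₃ = x₁ / y₁ + x₂ / y₂ + x₃ / y₃ - (x₁ / y₁ + x₂ / y₂) := by ring
    rw [this]
    exact Valuation.map_sub_le _ (hd.trans hc21) (Valuation.map_add_le _ hc₁ hc₂)
  rw [Affine.Point.add_some hxy]
  refine ⟨hx₃, ?_⟩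
  have hn3 : E.toAffine.Nonsingular x₃ y₃ := Affine.nonsingular_negAdd h₁ h₂ hxy
  have hn := tParam_neg hE hn3 hx₃
  rw [Affine.Point.neg_some, tParam_some_of_not_mem _ hx₃, tParam_some_of_not_mem _ hx₃] at hn
  rw [tParam_some_of_not_mem _ hx₃]
  have : x₃ / E.toAffine.negY x₃ y₃ - (x₁ / y₁ + x₂ / y₂) =
      (x₃ / E.toAffine.negY x₃ y₃ + x₃ / y₃) - (x₁ / y₁ + x₂ / y₂ + x₃ / y₃) := by ring
  change v (x₃ / E.toAffine.negY x₃ y₃ - _) ≤ _
  rw [this]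
  exact Valuation.map_sub_le _ (hn.trans (pow_le_pow_left' ht3c 2)) hd

end Fermat.Agent.ECRed
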