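/-
Reduction is additive on the points with nonsingular reduction.
-/
import Fermat.Agent.ECRed.Kernel

set_option autoImplicit false

noncomputable section

namespace Fermat.Agent.ECRed

open WeierstrassCurve IsLocalRing

variable {K : Type*} [Field K] {A : ValuationSubring K}
  {E : WeierstrassCurve K} {Ek : WeierstrassCurve (ResidueField A)}

local notation "v" => A.valuation
local notation "ρ" => red A

theorem reduce_some_of_mem {x y : K} (h : E.toAffine.Nonsingular x y) (hx : x ∈ A)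
    (hns : Ek.toAffine.Nonsingular (ρ x) (ρ y)) :
    reduce A E Ek (.some x y h) = .some _ _ hns := by
  simp only [reduce]; exact dif_pos ⟨hx, hns⟩

theorem reduce_some_of_not_mem {x y : K} (h : E.toAffine.Nonsingular x y) (hx : x ∉ A) :
    reduce A E Ek (.some x y h) = 0 := by
  simp only [reduce]; exact dif_neg fun h' => hx h'.1

theorem reduce_zero : reduce A E Ek 0 = 0 := rfl

theorem InKernel.smoothlyReducing {P : E.toAffine.Point} (hP : InKernel A E P) :
    SmoothlyReducing A E Ek P := by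
  rcases P with _ | ⟨x, y, h⟩
  · trivial
  · exact fun hx => absurd hx hP

theorem InKernel.reduce_eq {P : E.toAffine.Point} (hP : InKernel A E P) :
    reduce A E Ek P = 0 := by
  rcases P with _ | ⟨x, y, h⟩
  · rfl
  · exact reduce_some_of_not_mem h hP

theorem InKernel.neg {P : E.toAffine.Point} (hP : InKernel A E P) : InKernel A E (-P) := by
  rcases P with _ | ⟨x, y, h⟩
  · exact hP
  · rw [Affine.Point.neg_some]; exact hP

theorem reduce_eq_zero_iff {P : E.toAffine.Point} (hP : SmoothlyReducing A E Ek P) :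
    reduce A E Ek P = 0 ↔ InKernel A E P := by
  refine ⟨fun h => ?_, InKernel.reduce_eq⟩
  rcases P with _ | ⟨x, y, hxy⟩
  · trivial
  · intro hx
    rw [reduce_some_of_mem hxy hx (hP hx)] at h
    exact Affine.Point.some_ne_zero _ h

variable [DecidableEq K] (hE : IsReductionOf A E Ek)

include hE

theorem InKernel.add {P Q : E.toAffine.Point} (hP : InKernel A E P) (hQ : InKernel A E Q) :
    InKernel A E (P + Q) := by
  rcases P with _ | ⟨x₁, y₁, h₁⟩
  · rw [← Affine.Point.zero_def, zero_add]; exact hQ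
  rcases Q with _ | ⟨x₂, y₂, h₂⟩
  · rw [← Affine.Point.zero_def, add_zero]; exact hP
  obtain ⟨-, -, ht₁, -⟩ := params_of_not_mem hE h₁.1 hP
  obtain ⟨-, -, ht₂, -⟩ := params_of_not_mem hE h₂.1 hQ
  exact (inKernel_add_some hE h₁ h₂ hP hQ (max_lt ht₁ ht₂) (le_max_left _ _) (le_max_right _ _)).1

theorem SmoothlyReducing.neg {P : E.toAffine.Point} (hP : SmoothlyReducing A E Ek P) :
    SmoothlyReducing A E Ek (-P) := by
  rcases P with _ | ⟨x, y, h⟩
  · exact hP
  · rw [Affine.Point.neg_some]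
    intro hx
    rw [red_negY hE hx (Y_mem hE h.1 hx)]
    exact (Affine.nonsingular_neg _ _).2 (hP hx)

theorem reduce_neg {P : E.toAffine.Point} (hP : SmoothlyReducing A E Ek P) :
    reduce A E Ek (-P) = -reduce A E Ek P := by
  rcases P with _ | ⟨x, y, h⟩
  · rfl
  rw [Affine.Point.neg_some]
  by_cases hx : x ∈ A
  · have hy := Y_mem hE h.1 hx
    have hns : Ek.toAffine.Nonsingular (ρ x) (ρ (E.toAffine.negY x y)) := by
      rw [red_negY hE hx hy]; exact (Affine.nonsingular_neg _ _).2 (hP hx)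
    rw [reduce_some_of_mem _ hx hns, reduce_some_of_mem h hx (hP hx), Affine.Point.neg_some]
    simp only [Affine.Point.some.injEq, true_and]
    exact red_negY hE hx hy
  · rw [reduce_some_of_not_mem _ hx, reduce_some_of_not_mem h hx]; rfl

/-- A secant of non-integral slope meets the curve again outside the integral points. -/
theorem addX_not_mem {x₁ x₂ l : K} (hx₁ : x₁ ∈ A) (hx₂ : x₂ ∈ A) (hl : l ∉ A) :
    E.toAffine.addX x₁ x₂ l ∉ A := by
  intro h
  have hl1 := one_lt_val.2 hl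
  have hla : v (l + E.a₁) = v l :=
    Valuation.map_add_eq_of_lt_left _ (lt_of_le_of_lt (val_le_one hE.mem₁) hl1)
  have : v (l * (l + E.a₁)) ≤ 1 := by
    have e : l * (l + E.a₁) = E.toAffine.addX x₁ x₂ l + E.a₂ + x₁ + x₂ := by
      rw [Affine.addX]; ring
    rw [e]
    exact val_le_one (add_mem (add_mem (add_mem h hE.mem₂) hx₁) hx₂)
  rw [map_mul, hla] at this
  exact absurd this (not_le.2 (one_lt_mul'' hl1 hl1))

/-- `λ D = N` for the slope `λ` of any non-vertical secant. -/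
theorem slope_mul_eq {x₁ x₂ y₁ y₂ : K} (h₁ : E.toAffine.Equation x₁ y₁)
    (h₂ : E.toAffine.Equation x₂ y₂) (hxy : ¬(x₁ = x₂ ∧ y₁ = E.toAffine.negY x₂ y₂)) :
    E.toAffine.slope x₁ x₂ y₁ y₂ * (y₁ - E.toAffine.negY x₂ y₂) =
      x₁ * x₁ + x₁ * x₂ + x₂ * x₂ + E.a₂ * (x₁ + x₂) + E.a₄ - E.a₁ * y₁ := by
  by_cases hx : x₁ = x₂
  · have hy : y₁ ≠ E.toAffine.negY x₂ y₂ := fun h => hxy ⟨hx, h⟩
    have hy12 := Affine.Y_eq_of_Y_ne h₁ h₂ hx hy
    rw [Affine.slope_of_Y_ne hx hy, ← hx, ← hy12]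
    have hD : y₁ - E.toAffine.negY x₁ y₁ ≠ 0 := sub_ne_zero.2 (by rwa [← hx, ← hy12] at hy)
    rw [div_mul_cancel₀ _ hD]
    ring
  · have e₁ := (Affine.equation_iff x₁ y₁).1 h₁
    have e₂ := (Affine.equation_iff x₂ y₂).1 h₂
    rw [Affine.slope_of_X_ne hx, div_mul_eq_mul_div, div_eq_iff (sub_ne_zero.2 hx), Affine.negY]
    linear_combination e₁ - e₂

variable [DecidableEq (ResidueField A)]

/-- The slope of a line through two integral points: either the reductions are opposite and the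
slope is not integral, or the slope is integral and reduces to the slope of the reductions. -/
theorem red_slope {x₁ x₂ y₁ y₂ : K} (h₁ : E.toAffine.Equation x₁ y₁)
    (h₂ : E.toAffine.Equation x₂ y₂) (hx₁ : x₁ ∈ A) (hx₂ : x₂ ∈ A)
    (hns : Ek.toAffine.Nonsingular (ρ x₁) (ρ y₁))
    (hxy : ¬(x₁ = x₂ ∧ y₁ = E.toAffine.negY x₂ y₂)) :
    if ρ x₁ = ρ x₂ ∧ ρ y₁ = Ek.toAffine.negY (ρ x₂) (ρ y₂) then
      E.toAffine.slope x₁ x₂ y₁ y₂ ∉ A
    else E.toAffine.slope x₁ x₂ y₁ y₂ ∈ A ∧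
      ρ (E.toAffine.slope x₁ x₂ y₁ y₂) = Ek.toAffine.slope (ρ x₁) (ρ x₂) (ρ y₁) (ρ y₂) := by
  have hy₁ := Y_mem hE h₁ hx₁
  have hy₂ := Y_mem hE h₂ hx₂
  set l := E.toAffine.slope x₁ x₂ y₁ y₂ with hl
  have key := slope_mul_eq hE h₁ h₂ hxy
  rw [← hl] at key
  set D := y₁ - E.toAffine.negY x₂ y₂ with hD
  set N := x₁ * x₁ + x₁ * x₂ + x₂ * x₂ + E.a₂ * (x₁ + x₂) + E.a₄ - E.a₁ * y₁ with hN
  have hDA : D ∈ A := sub_mem hy₁ (negY_mem hE hx₂ hy₂)
  have hNA : N ∈ A := sub_mem (add_mem (add_mem (add_mem (add_mem (mul_mem hx₁ hx₁)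
    (mul_mem hx₁ hx₂)) (mul_mem hx₂ hx₂)) (mul_mem hE.mem₂ (add_mem hx₁ hx₂))) hE.mem₄)
    (mul_mem hE.mem₁ hy₁)
  have hρD : ρ D = ρ y₁ - Ek.toAffine.negY (ρ x₂) (ρ y₂) := by
    rw [hD, red_sub hy₁ (negY_mem hE hx₂ hy₂), red_negY hE hx₂ hy₂]
  have hρN : ρ N = ρ x₁ * ρ x₁ + ρ x₁ * ρ x₂ + ρ x₂ * ρ x₂ + Ek.a₂ * (ρ x₁ + ρ x₂) + Ek.a₄
      - Ek.a₁ * ρ y₁ := by
    obtain ⟨E₀, rfl, rfl⟩ := hE.exists_model
    lift x₁ to A using hx₁
    lift x₂ to A using hx₂
    lift y₁ to A using hy₁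
    have e : N = ((x₁ * x₁ + x₁ * x₂ + x₂ * x₂ + E₀.a₂ * (x₁ + x₂) + E₀.a₄ - E₀.a₁ * y₁ : A) : K) :=
      rfl
    rw [e, red_coe, red_coe, red_coe, red_coe]
    simp only [map_sub, map_add, map_mul, map_a₁, map_a₂, map_a₄]
  split_ifs with hneg
  · obtain ⟨hx, hy⟩ := hneg
    by_cases hyy : ρ y₁ = ρ y₂
    · -- the reductions coincide and equal their opposite
      have hD0 : ρ D = 0 := by rw [hρD, ← hy, sub_self]
      refine not_mem_of_mul_eq hNA hDA ?_ hD0 key
      intro hN0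
      rw [Affine.nonsingular_iff'] at hns
      rcases hns.2 with hX | hY
      · refine hX ?_
        rw [hρN, ← hx] at hN0
        linear_combination -hN0
      · refine hY ?_
        rw [Affine.negY, ← hx, ← hyy] at hy
        linear_combination hy
    · have hne : x₁ ≠ x₂ := by
        rintro rfl
        rcases Affine.Y_eq_of_X_eq h₁ h₂ rfl with h | h
        · exact hyy (by rw [h])
        · exact hxy ⟨rfl, h⟩
      refine not_mem_of_mul_eq (a := y₁ - y₂) (b := x₁ - x₂) (sub_mem hy₁ hy₂) (sub_mem hx₁ hx₂)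
        ?_ ?_ ?_
      · rw [red_sub hy₁ hy₂]; exact sub_ne_zero.2 hyy
      · rw [red_sub hx₁ hx₂, hx, sub_self]
      · rw [hl, Affine.slope_of_X_ne hne, div_mul_cancel₀ _ (sub_ne_zero.2 hne)]
  · by_cases hx : ρ x₁ = ρ x₂
    · have hy : ρ y₁ ≠ Ek.toAffine.negY (ρ x₂) (ρ y₂) := fun h => hneg ⟨hx, h⟩
      obtain ⟨hlA, hlρ⟩ := div_mem_of_mul_eq hNA hDA (by rw [hρD]; exact sub_ne_zero.2 hy) key
      refine ⟨hlA, ?_⟩
      have hy12 := Affine.Y_eq_of_Y_ne (red_equation hE h₁ hx₁) (red_equation hE h₂ hx₂) hx hy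
      rw [hlρ, hρN, hρD, Affine.slope_of_Y_ne hx hy, ← hx, ← hy12]
      congr 1
      ring
    · have hne : x₁ ≠ x₂ := fun h => hx (by rw [h])
      obtain ⟨hlA, hlρ⟩ := div_mem_of_mul_eq (c := l) (a := y₁ - y₂) (b := x₁ - x₂)
        (sub_mem hy₁ hy₂) (sub_mem hx₁ hx₂) (by rw [red_sub hx₁ hx₂]; exact sub_ne_zero.2 hx)
        (by rw [hl, Affine.slope_of_X_ne hne, div_mul_cancel₀ _ (sub_ne_zero.2 hne)])
      refine ⟨hlA, ?_⟩
      rw [hlρ, Affine.slope_of_X_ne hx, red_sub hy₁ hy₂, red_sub hx₁ hx₂]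

omit [DecidableEq K] [DecidableEq (ResidueField A)] in
/-- The addition formulae commute with reduction. -/
theorem red_addXY {x₁ x₂ y₁ l : K} (hx₁ : x₁ ∈ A) (hx₂ : x₂ ∈ A) (hy₁ : y₁ ∈ A) (hl : l ∈ A) :
    ρ (E.toAffine.addX x₁ x₂ l) = Ek.toAffine.addX (ρ x₁) (ρ x₂) (ρ l) ∧
      ρ (E.toAffine.addY x₁ x₂ y₁ l) = Ek.toAffine.addY (ρ x₁) (ρ x₂) (ρ y₁) (ρ l) := by
  obtain ⟨E₀, rfl, rfl⟩ := hE.exists_model
  lift x₁ to A using hx₁
  lift x₂ to A using hx₂
  lift y₁ to A using hy₁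
  lift l to A using hl
  constructor
  · change ρ ((E₀.map A.subtype).toAffine.addX (A.subtype x₁) (A.subtype x₂) (A.subtype l)) = _
    erw [Affine.map_addX, red_coe, red_coe, red_coe, red_coe, Affine.map_addX]
  · change ρ ((E₀.map A.subtype).toAffine.addY (A.subtype x₁) (A.subtype x₂) (A.subtype y₁)
      (A.subtype l)) = _
    erw [Affine.map_addY, red_coe, red_coe, red_coe, red_coe, red_coe, Affine.map_addY]

/-- Additivity for two integral points. -/
theorem reduce_add_integral {x₁ x₂ y₁ y₂ : K} (h₁ : E.toAffine.Nonsingular x₁ y₁)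
    (h₂ : E.toAffine.Nonsingular x₂ y₂) (hx₁ : x₁ ∈ A) (hx₂ : x₂ ∈ A)
    (hn₁ : Ek.toAffine.Nonsingular (ρ x₁) (ρ y₁)) (hn₂ : Ek.toAffine.Nonsingular (ρ x₂) (ρ y₂)) :
    SmoothlyReducing A E Ek (.some x₁ y₁ h₁ + .some x₂ y₂ h₂) ∧
      reduce A E Ek (.some x₁ y₁ h₁ + .some x₂ y₂ h₂) =
        Affine.Point.some _ _ hn₁ + Affine.Point.some _ _ hn₂ := by
  have hy₁ := Y_mem hE h₁.1 hx₁
  have hy₂ := Y_mem hE h₂.1 hx₂
  by_cases hxy : x₁ = x₂ ∧ y₁ = E.toAffine.negY x₂ y₂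
  · rw [Affine.Point.add_of_Y_eq hxy.1 hxy.2, Affine.Point.add_of_Y_eq (by rw [hxy.1])
      (by rw [hxy.2, red_negY hE hx₂ hy₂])]
    exact ⟨trivial, rfl⟩
  have hsl := red_slope hE h₁.1 h₂.1 hx₁ hx₂ hn₁ hxy
  rw [Affine.Point.add_some hxy]
  by_cases hneg : ρ x₁ = ρ x₂ ∧ ρ y₁ = Ek.toAffine.negY (ρ x₂) (ρ y₂)
  · rw [if_pos hneg] at hsl
    have hx₃ := addX_not_mem hE hx₁ hx₂ hsl
    rw [Affine.Point.add_of_Y_eq hneg.1 hneg.2, reduce_some_of_not_mem _ hx₃]
    exact ⟨fun hx => absurd hx hx₃, rfl⟩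
  · rw [if_neg hneg] at hsl
    obtain ⟨hlA, hlρ⟩ := hsl
    rw [Affine.Point.add_some hneg]
    have hX : E.toAffine.addX x₁ x₂ (E.toAffine.slope x₁ x₂ y₁ y₂) ∈ A :=
      sub_mem (sub_mem (sub_mem (add_mem (pow_mem hlA 2) (mul_mem hE.mem₁ hlA)) hE.mem₂) hx₁) hx₂
    have hXY := red_addXY hE hx₁ hx₂ hy₁ hlA
    rw [hlρ] at hXY
    have hns' : Ek.toAffine.Nonsingular (ρ (E.toAffine.addX x₁ x₂ (E.toAffine.slope x₁ x₂ y₁ y₂)))
        (ρ (E.toAffine.addY x₁ x₂ y₁ (E.toAffine.slope x₁ x₂ y₁ y₂))) := by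
      rw [hXY.1, hXY.2]; exact Affine.nonsingular_add hn₁ hn₂ hneg
    refine ⟨fun _ => hns', ?_⟩
    rw [reduce_some_of_mem _ hX hns']
    simp only [Affine.Point.some.injEq]
    exact hXY

/-- Reduction is additive on smoothly reducing points. -/
theorem reduce_add {P Q : E.toAffine.Point} (hP : SmoothlyReducing A E Ek P)
    (hQ : SmoothlyReducing A E Ek Q) :
    SmoothlyReducing A E Ek (P + Q) ∧
      reduce A E Ek (P + Q) = reduce A E Ek P + reduce A E Ek Q := by
  rcases P with _ | ⟨x₁, y₁, h₁⟩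
  · rw [← Affine.Point.zero_def, zero_add, reduce_zero, zero_add]; exact ⟨hQ, rfl⟩
  rcases Q with _ | ⟨x₂, y₂, h₂⟩
  · rw [← Affine.Point.zero_def, add_zero, reduce_zero, add_zero]; exact ⟨hP, rfl⟩
  -- one integral point plus a point of the kernel of reduction
  have mixed : ∀ {x y : K} (h : E.toAffine.Nonsingular x y) {Q : E.toAffine.Point},
      x ∈ A → Ek.toAffine.Nonsingular (ρ x) (ρ y) → InKernel A E Q →
      SmoothlyReducing A E Ek (.some x y h + Q) ∧
        reduce A E Ek (.some x y h + Q) = reduce A E Ek (.some x y h) := by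
    intro x y h Q hx hn hQ
    obtain ⟨R, hR⟩ : ∃ R, R = Affine.Point.some x y h + Q := ⟨_, rfl⟩
    rw [← hR]
    have hRker : ¬ InKernel A E R := by
      intro hker
      have hker' := InKernel.add hE hker hQ.neg
      rw [hR, add_neg_cancel_right] at hker'
      exact hker' hx
    have hRP : R + -Affine.Point.some x y h = Q := by rw [hR]; abel
    rcases R with _ | ⟨x₃, y₃, h₃⟩
    · exact absurd trivial hRker
    have hx₃ : x₃ ∈ A := by simpa [InKernel] using hRker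
    have hy := Y_mem hE h.1 hx
    have hy₃ := Y_mem hE h₃.1 hx₃
    have hnneg : Ek.toAffine.Nonsingular (ρ x) (ρ (E.toAffine.negY x y)) := by
      rw [red_negY hE hx hy]; exact (Affine.nonsingular_neg _ _).2 hn
    rw [Affine.Point.neg_some] at hRP
    have hn₃ : Ek.toAffine.Nonsingular (ρ x₃) (ρ y₃) := by
      by_cases hxx : ρ x₃ = ρ x
      · rcases Affine.Y_eq_of_X_eq (red_equation hE h₃.1 hx₃) hn.1 hxx with he | he
        · rw [hxx, he]; exact hn
        · rw [hxx, he]; exact (Affine.nonsingular_neg _ _).2 hn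
      · exfalso
        have hne : x₃ ≠ x := fun he => hxx (by rw [he])
        rw [Affine.Point.add_some fun he => hne he.1] at hRP
        obtain ⟨hlA, -⟩ := div_mem_of_mul_eq (sub_mem hy₃ (negY_mem hE hx hy))
          (sub_mem hx₃ hx) (by rw [red_sub hx₃ hx]; exact sub_ne_zero.2 hxx)
          (div_mul_cancel₀ (y₃ - E.toAffine.negY x y) (sub_ne_zero.2 hne))
        rw [← hRP] at hQ
        change E.toAffine.addX x₃ x (E.toAffine.slope x₃ x y₃ (E.toAffine.negY x y)) ∉ A at hQ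
        rw [Affine.slope_of_X_ne hne] at hQ
        exact hQ (sub_mem (sub_mem (sub_mem (add_mem (pow_mem hlA 2) (mul_mem hE.mem₁ hlA))
          hE.mem₂) hx₃) hx)
    refine ⟨fun _ => hn₃, ?_⟩
    have hsum := (reduce_add_integral hE h₃ ((Affine.nonsingular_neg _ _).2 h) hx₃ hx hn₃ hnneg).2
    rw [hRP, hQ.reduce_eq] at hsum
    rw [reduce_some_of_mem h₃ hx₃ hn₃, reduce_some_of_mem h hx hn]
    refine (eq_neg_of_add_eq_zero_left hsum.symm).trans ?_
    rw [Affine.Point.neg_some]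
    simp only [Affine.Point.some.injEq, true_and]
    rw [red_negY hE hx hy, Affine.negY_negY]
  by_cases hx₁ : x₁ ∈ A <;> by_cases hx₂ : x₂ ∈ A
  · rw [reduce_some_of_mem h₁ hx₁ (hP hx₁), reduce_some_of_mem h₂ hx₂ (hQ hx₂)]
    exact reduce_add_integral hE h₁ h₂ hx₁ hx₂ (hP hx₁) (hQ hx₂)
  · rw [reduce_some_of_not_mem h₂ hx₂, add_zero]
    exact mixed h₁ hx₁ (hP hx₁) hx₂
  · rw [reduce_some_of_not_mem h₁ hx₁, zero_add, add_comm]
    exact mixed h₂ hx₂ (hQ hx₂) hx₁
  · have hk := InKernel.add hE (P := .some x₁ y₁ h₁) (Q := .some x₂ y₂ h₂) hx₁ hx₂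
    exact ⟨hk.smoothlyReducing, by
      rw [hk.reduce_eq, reduce_some_of_not_mem h₁ hx₁, reduce_some_of_not_mem h₂ hx₂, add_zero]⟩

variable (A E Ek)

/-- The subgroup of smoothly reducing points. -/
def smoothSubgroup : AddSubgroup E.toAffine.Point where
  carrier := {P | SmoothlyReducing A E Ek P}
  zero_mem' := trivial
  add_mem' hP hQ := (reduce_add hE hP hQ).1
  neg_mem' hP := SmoothlyReducing.neg hE hP

/-- Reduction as a homomorphism on the smoothly reducing points. -/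
def reduceHom : smoothSubgroup A E Ek hE →+ Ek.toAffine.Point where
  toFun P := reduce A E Ek P.1
  map_zero' := rfl
  map_add' P Q := (reduce_add hE P.2 Q.2).2

/-- The kernel of reduction as a subgroup. -/
def kernelSubgroup : AddSubgroup E.toAffine.Point where
  carrier := {P | InKernel A E P}
  zero_mem' := trivial
  add_mem' hP hQ := InKernel.add hE hP hQ
  neg_mem' hP := InKernel.neg hP

omit [DecidableEq (ResidueField A)]

variable {A E Ek}

/-- Multiplication by `n` acts on the parameter as multiplication by `n` to first order. -/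
theorem tParam_nsmul {x y : K} (h : E.toAffine.Nonsingular x y) (hx : x ∉ A) (j : ℕ) :
    InKernel A E (j • Affine.Point.some x y h) ∧
      v (tParam A E (j • Affine.Point.some x y h) - (j : K) * (x / y)) ≤ v (x / y) ^ 2 := by
  obtain ⟨hx0, hy0, ht, -⟩ := params_of_not_mem hE h.1 hx
  induction j with
  | zero =>
    refine ⟨by rw [zero_smul]; trivial, ?_⟩
    rw [zero_smul, Nat.cast_zero, zero_mul]
    change v (0 - 0) ≤ _
    rw [sub_zero, map_zero]
    exact zero_le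
  | succ j ih =>
    obtain ⟨hk, hv⟩ := ih
    rw [succ_nsmul, Nat.cast_succ, add_mul, one_mul]
    generalize j • Affine.Point.some x y h = Q at hk hv ⊢
    rcases Q with _ | ⟨x₂, y₂, h₂⟩
    · rw [← Affine.Point.zero_def, zero_add]
      refine ⟨hx, ?_⟩
      rw [tParam_some_of_not_mem h hx]
      change v (0 - (j : K) * (x / y)) ≤ _ at hv
      rw [show x / y - ((j : K) * (x / y) + x / y) = 0 - (j : K) * (x / y) by ring]
      exact hv
    · rw [tParam_some_of_not_mem h₂ hk] at hv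
      have h2c : v (x₂ / y₂) ≤ v (x / y) := by
        rw [show x₂ / y₂ = (x₂ / y₂ - (j : K) * (x / y)) + (j : K) * (x / y) by ring]
        refine Valuation.map_add_le _ (hv.trans ?_) (mul_mem_val (natCast_mem A j) le_rfl)
        simpa using pow_le_pow_right_of_le_one' ht.le (show 1 ≤ 2 by norm_num)
      obtain ⟨hk', hv'⟩ := inKernel_add_some hE h₂ h hk hx ht h2c le_rfl
      refine ⟨hk', ?_⟩
      rw [show ∀ a : K, a - ((j : K) * (x / y) + x / y)
          = (a - (x₂ / y₂ + x / y)) + (x₂ / y₂ - (j : K) * (x / y)) from fun a => by ring]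
      exact Valuation.map_add_le _ hv' hv

/-- The kernel of reduction has no torsion of order prime to the residue characteristic. -/
theorem eq_zero_of_inKernel_of_nsmul_eq_zero {P : E.toAffine.Point} (hP : InKernel A E P)
    {n : ℕ} (hn : v (n : K) = 1) (hnP : n • P = 0) : P = 0 := by
  rcases P with _ | ⟨x, y, h⟩
  · rfl
  exfalso
  obtain ⟨hx0, hy0, ht, -⟩ := params_of_not_mem hE h.1 hP
  have := (tParam_nsmul hE h hP n).2
  rw [hnP] at this
  change v (0 - (n : K) * (x / y)) ≤ _ at this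
  rw [zero_sub, Valuation.map_neg, map_mul, hn, one_mul] at this
  have hpos : 0 < v (x / y) := (Valuation.pos_iff _).2 (div_ne_zero hx0 hy0)
  exact absurd this (not_le.2 (by rw [sq]; exact mul_lt_of_lt_one_left hpos ht))

end Fermat.Agent.ECRed
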