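/-
Reduction of an integral Weierstrass curve at a place of the algebraic closure of `ℚ` over a good
prime.
-/
import Fermat.Agent.ECRed.Hom
import Fermat.Agent.Galois.Frobenius
import Fermat.Prelude.Def_EllipticCurve_FrobeniusTrace
import Fermat.Prelude.Def_EllipticCurve_ZeroComponentAt
import Fermat.Prelude.Def_FLTPrelim_Modularity

set_option autoImplicit false

noncomputable section

namespace Fermat.Agent.ECRed

open WeierstrassCurve
open scoped WeierstrassCurve.Affine Fermat.Agent.Galois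

/-- The points of an integral Weierstrass curve over `Q̄`. -/
abbrev QbarPoint (W : WeierstrassCurve ℤ) : Type :=
  ((W.map (Int.castRingHom ℚ))⁄Q̄).Point

/-- The reduced curve at a place of `Q̄`. -/
abbrev redCurve (W : WeierstrassCurve ℤ) (A : ValuationSubring Q̄) :
    WeierstrassCurve (IsLocalRing.ResidueField A) :=
  W.map (Int.castRingHom (IsLocalRing.ResidueField A))

variable (W : WeierstrassCurve ℤ) (A : ValuationSubring Q̄)

theorem isReductionOf_rat :
    IsReductionOf A ((W.map (Int.castRingHom ℚ))⁄Q̄) (redCurve W A) := by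
  have h : (W.map (Int.castRingHom ℚ))⁄Q̄ = (W.map (Int.castRingHom A)).map A.subtype := by
    change (W.map (Int.castRingHom ℚ)).map (algebraMap ℚ Q̄) = _
    rw [WeierstrassCurve.map_map, WeierstrassCurve.map_map]
    exact congrArg W.map (RingHom.ext_int _ _)
  have h' : redCurve W A = (W.map (Int.castRingHom A)).map (IsLocalRing.residue A) := by
    rw [WeierstrassCurve.map_map]
    exact congrArg W.map (RingHom.ext_int _ _)
  rw [h, h']
  exact isReductionOf_of_model _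

variable {W A} {ℓ : ℕ}

/-- An integer prime to `ℓ` is nonzero in the residue field of a place over `ℓ`. -/
theorem intCast_residueField_ne_zero (hℓ : ℓ.Prime) (hA : A.LiesOverPrime ℓ) {n : ℤ}
    (hn : ¬ (ℓ : ℤ) ∣ n) : (n : IsLocalRing.ResidueField A) ≠ 0 := by
  rw [← map_intCast (IsLocalRing.residue A) n, ne_eq, IsLocalRing.residue_eq_zero_iff,
    ← A.coe_mem_nonunits_iff]
  push_cast
  rwa [Galois.intCast_mem_nonunits_iff hℓ hA]

/-- The residue field of a place over `ℓ` has characteristic `ℓ`. -/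
theorem charP_residueField (hℓ : ℓ.Prime) (hA : A.LiesOverPrime ℓ) :
    CharP (IsLocalRing.ResidueField A) ℓ := by
  haveI := Fact.mk hℓ
  refine (CharP.charP_iff_prime_eq_zero hℓ).2 ?_
  rw [← map_natCast (IsLocalRing.residue A) ℓ, IsLocalRing.residue_eq_zero_iff,
    ← A.coe_mem_nonunits_iff]
  exact hA

/-- A natural number prime to `ℓ` is a unit at a place over `ℓ`. -/
theorem valuation_natCast_eq_one (hℓ : ℓ.Prime) (hA : A.LiesOverPrime ℓ) {n : ℕ}
    (hn : ¬ ℓ ∣ n) : A.valuation (n : Q̄) = 1 := by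
  refine le_antisymm (val_le_one (natCast_mem A n)) (not_lt.1 fun h => hn ?_)
  rw [← ValuationSubring.mem_nonunits_iff, ← Int.cast_natCast,
    Galois.intCast_mem_nonunits_iff hℓ hA] at h
  exact_mod_cast h

theorem mem_iff_smul_mem (σ : A.decompositionSubgroup ℚ) (x : Q̄) :
    (σ : Q̄ ≃ₐ[ℚ] Q̄) x ∈ A ↔ x ∈ A := by
  open scoped Pointwise in
  have hσ : (σ : Q̄ ≃ₐ[ℚ] Q̄) • A = A := σ.2
  exact (SetLike.ext_iff.1 hσ _).symm.trans ValuationSubring.smul_mem_pointwise_smul_iff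

theorem red_smul (σ : A.decompositionSubgroup ℚ) (x : Q̄) :
    red A ((σ : Q̄ ≃ₐ[ℚ] Q̄) x) = σ • red A x := by
  by_cases hx : x ∈ A
  · rw [red_of_mem hx, ← IsLocalRing.ResidueField.residue_smul, ← red_coe]
    rfl
  · rw [red, red, dif_neg hx, dif_neg fun h => hx ((mem_iff_smul_mem σ x).1 h), smul_zero]

/-- At a good prime, the reduced curve is elliptic. -/
theorem Δ_redCurve_ne_zero (hℓ : ℓ.Prime) (hA : A.LiesOverPrime ℓ)
    (hg : W.IsGoodPrimeFor ℓ) : (redCurve W A).Δ ≠ 0 := by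
  rw [WeierstrassCurve.map_Δ]
  exact intCast_residueField_ne_zero hℓ hA hg

section

variable [DecidableEq (IsLocalRing.ResidueField A)]

/-- The reduction homomorphism at a good prime. -/
def redHom (hℓ : ℓ.Prime) (hA : A.LiesOverPrime ℓ) (hg : W.IsGoodPrimeFor ℓ) :
    QbarPoint W →+ (redCurve W A).toAffine.Point where
  toFun := reduce A _ _
  map_zero' := rfl
  map_add' P Q :=
    (reduce_add (isReductionOf_rat W A)
      (smoothlyReducing_of_Δ_ne_zero (isReductionOf_rat W A) (Δ_redCurve_ne_zero hℓ hA hg) P)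
      (smoothlyReducing_of_Δ_ne_zero (isReductionOf_rat W A) (Δ_redCurve_ne_zero hℓ hA hg) Q)).2

variable (hℓ : ℓ.Prime) (hA : A.LiesOverPrime ℓ) (hg : W.IsGoodPrimeFor ℓ)

theorem redHom_apply (P : QbarPoint W) :
    redHom hℓ hA hg P = reduce A _ (redCurve W A) P := rfl

theorem redHom_eq_zero_iff (P : QbarPoint W) :
    redHom hℓ hA hg P = 0 ↔
      P = 0 ∨ ∃ x y h, P = Affine.Point.some x y h ∧ x ∉ A := by
  rw [redHom_apply, reduce_eq_zero_iff
    (smoothlyReducing_of_Δ_ne_zero (isReductionOf_rat W A) (Δ_redCurve_ne_zero hℓ hA hg) P)]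
  rcases P with _ | ⟨x, y, h⟩
  · exact iff_of_true trivial (Or.inl rfl)
  · refine ⟨fun hx => Or.inr ⟨x, y, h, rfl, hx⟩, ?_⟩
    rintro (h0 | ⟨x', y', h', he, hx⟩)
    · exact absurd h0 (Affine.Point.some_ne_zero _)
    · cases he; exact hx

/-- Reduction is injective on torsion prime to the residue characteristic. -/
theorem eq_zero_of_redHom_eq_zero {n : ℕ} (hn : ¬ ℓ ∣ n) {P : QbarPoint W}
    (hP : n • P = 0) (h0 : redHom hℓ hA hg P = 0) : P = 0 := by
  rw [redHom_apply, reduce_eq_zero_iff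
    (smoothlyReducing_of_Δ_ne_zero (isReductionOf_rat W A) (Δ_redCurve_ne_zero hℓ hA hg) P)] at h0
  exact eq_zero_of_inKernel_of_nsmul_eq_zero (isReductionOf_rat W A) h0
    (valuation_natCast_eq_one hℓ hA hn) hP

theorem redHom_injOn_torsion {n : ℕ} (hn : ¬ ℓ ∣ n) :
    Set.InjOn (redHom hℓ hA hg) {P : QbarPoint W | n • P = 0} := by
  intro P hP Q hQ h
  refine sub_eq_zero.1 (eq_zero_of_redHom_eq_zero hℓ hA hg hn ?_ (by rw [map_sub, h, sub_self]))
  rw [nsmul_sub, show n • P = 0 from hP, show n • Q = 0 from hQ, sub_zero]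

/-- Equivariance of reduction under the decomposition group, coordinatewise. -/
theorem redHom_smul_some (σ : A.decompositionSubgroup ℚ) (P : QbarPoint W)
    {x y : IsLocalRing.ResidueField A} (h : (redCurve W A).toAffine.Nonsingular x y)
    (hP : redHom hℓ hA hg P = Affine.Point.some x y h) :
    ∃ h', redHom hℓ hA hg ((σ : Q̄ ≃ₐ[ℚ] Q̄) • P) = Affine.Point.some (σ • x) (σ • y) h' := by
  rcases P with _ | ⟨a, b, hab⟩
  · rw [← Affine.Point.zero_def, map_zero] at hP
    exact absurd hP.symm (Affine.Point.some_ne_zero _)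
  have ha : a ∈ A := by
    by_contra ha
    rw [redHom_apply, reduce_some_of_not_mem hab ha] at hP
    exact Affine.Point.some_ne_zero _ hP.symm
  have hsm := smoothlyReducing_of_Δ_ne_zero (isReductionOf_rat W A) (Δ_redCurve_ne_zero hℓ hA hg)
  rw [redHom_apply, reduce_some_of_mem hab ha (hsm (.some a b hab) ha)] at hP
  cases hP
  obtain ⟨hab', he⟩ : ∃ hab', (σ : Q̄ ≃ₐ[ℚ] Q̄) • (Affine.Point.some a b hab : QbarPoint W) =
      Affine.Point.some ((σ : Q̄ ≃ₐ[ℚ] Q̄) a) ((σ : Q̄ ≃ₐ[ℚ] Q̄) b) hab' := ⟨_, rfl⟩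
  have ha' := (mem_iff_smul_mem σ a).2 ha
  have hns := hsm (.some _ _ hab') ha'
  rw [he, redHom_apply, reduce_some_of_mem hab' ha' hns]
  refine ⟨by rw [← red_smul, ← red_smul]; exact hns, ?_⟩
  simp only [Affine.Point.some.injEq]
  exact ⟨red_smul σ a, red_smul σ b⟩

/-- Inertia does not move the reduction of a point. -/
theorem redHom_smul_of_mem_inertia {σ : Q̄ ≃ₐ[ℚ] Q̄} (hσ : σ ∈ A.inertiaSubgroupIn ℚ)
    (P : QbarPoint W) : redHom hℓ hA hg (σ • P) = redHom hℓ hA hg P := by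
  obtain ⟨τ, hτ, rfl⟩ := hσ
  change redHom hℓ hA hg ((τ : Q̄ ≃ₐ[ℚ] Q̄) • P) = _
  cases hP : redHom hℓ hA hg P with
  | zero =>
    rcases (redHom_eq_zero_iff hℓ hA hg P).1 hP with rfl | ⟨a, b, h, rfl, ha⟩
    · rfl
    · refine (redHom_eq_zero_iff hℓ hA hg _).2 (Or.inr ⟨_, _, _, rfl, ?_⟩)
      exact fun h' => ha ((mem_iff_smul_mem τ a).1 h')
  | some x y h =>
    obtain ⟨h', he⟩ := redHom_smul_some hℓ hA hg τ P h hP
    rw [he]
    have hfix : ∀ z : IsLocalRing.ResidueField A, τ • z = z := fun z =>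
      RingEquiv.congr_fun (MonoidHom.mem_ker.1 hτ) z
    simp only [hfix]

end

/-- Inertia at a good prime fixes the torsion prime to the residue characteristic. -/
theorem smul_eq_self_of_mem_inertia (hℓ : ℓ.Prime) (hA : A.LiesOverPrime ℓ)
    (hg : W.IsGoodPrimeFor ℓ) {n : ℕ} (hn : ¬ ℓ ∣ n) {σ : Q̄ ≃ₐ[ℚ] Q̄}
    (hσ : σ ∈ A.inertiaSubgroupIn ℚ) {P : QbarPoint W} (hP : n • P = 0) : σ • P = P := by
  classical
  refine redHom_injOn_torsion hℓ hA hg hn (?_ : n • (σ • P) = 0) hP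
    (redHom_smul_of_mem_inertia hℓ hA hg hσ P)
  rw [smul_comm n σ P, hP, smul_zero]

/-- Good reduction implies unramified torsion. -/
theorem galoisRepUnramifiedAt_of_isGoodPrimeFor (W : WeierstrassCurve ℤ) {ℓ n : ℕ} (hℓ : ℓ.Prime)
    (hg : W.IsGoodPrimeFor ℓ) (hn : ¬ ℓ ∣ n) :
    Affine.Point.GaloisRepUnramifiedAt (K := Q̄) ℚ (W.map (Int.castRingHom ℚ)) n ℓ := by
  intro A hA σ hσ x
  refine Subtype.ext (smul_eq_self_of_mem_inertia hℓ hA hg hn hσ ?_)
  have hx := (Submodule.mem_torsionBy_iff (n : ℤ) (x : QbarPoint W)).1 x.2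
  rwa [natCast_zsmul] at hx

end Fermat.Agent.ECRed
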