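/-
Residue fields of valuation subrings of algebraically closed fields, and the equivariance of the
reduction of points.
-/
import Fermat.Agent.ECRed.Hom
import Mathlib.RingTheory.Valuation.LocalSubring
import Mathlib.RingTheory.IntegralClosure.IntegrallyClosed
import Mathlib.FieldTheory.IsAlgClosed.Basic

set_option autoImplicit false

noncomputable section

namespace Fermat.Agent.ECRed

open Polynomial IsLocalRing

/-- The residue field of a valuation subring of an algebraically closed field is algebraically
closed. -/
theorem isAlgClosed_residueField {K : Type*} [Field K] [IsAlgClosed K] (A : ValuationSubring K) :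
    IsAlgClosed (ResidueField A) := by
  refine IsAlgClosed.of_exists_root _ fun g hg hirr => ?_
  have hlift : g ∈ lifts (residue A) := by
    rw [lifts_iff_coeff_lifts]
    exact fun n => residue_surjective _
  obtain ⟨f, hfg, hdeg, hf⟩ := lifts_and_natDegree_eq_and_monic hlift hg
  have hd : (f.map A.subtype).degree ≠ 0 := by
    rw [Polynomial.degree_map_eq_of_injective A.subtype_injective, degree_eq_natDegree hf.ne_zero,
      hdeg, Nat.cast_ne_zero.symm.symm]
    exact hirr.natDegree_pos.ne'
  obtain ⟨z, hz⟩ := IsAlgClosed.exists_root _ hd
  rw [IsRoot, eval_map] at hz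
  obtain ⟨a, ha⟩ := IsIntegrallyClosed.isIntegral_iff.1 (show IsIntegral A z from ⟨f, hf, hz⟩)
  refine ⟨residue A a, ?_⟩
  have h0 : f.eval a = 0 := by
    refine A.subtype_injective ?_
    rw [map_zero, ← eval₂_at_apply]
    rwa [← ha] at hz
  rw [← hfg]
  change (f.map (residue A)).eval (residue A a) = 0
  rw [eval_map, eval₂_at_apply, h0, map_zero]

end Fermat.Agent.ECRed
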