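/-
Frobenius elements at good primes acting on torsion: trace, determinant, characteristic polynomial.
-/
import Fermat.Agent.ECRed.Good
import Fermat.Agent.ECRed.ResidueField
import Fermat.Agent.Weil.Frobenius
import Fermat.Agent.EC.Torsion
import Mathlib.LinearAlgebra.Matrix.Charpoly.LinearMap
import Mathlib.Algebra.Algebra.ZMod

set_option autoImplicit false

noncomputable section

namespace Fermat.Agent.ECRed

open WeierstrassCurve
open scoped WeierstrassCurve.Affine Fermat.Agent.Galois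

variable {W : WeierstrassCurve ℤ} {A : ValuationSubring Q̄} {ℓ : ℕ}

theorem Δ_ne_zero_of_isGoodPrimeFor (hg : W.IsGoodPrimeFor ℓ) : W.Δ ≠ 0 := fun h =>
  hg (h ▸ dvd_zero _)

theorem Δ_reductionMod_ne_zero (hg : W.IsGoodPrimeFor ℓ) : (W.reductionMod ℓ).Δ ≠ 0 := by
  rw [reductionMod, map_Δ, eq_intCast, ne_eq, ZMod.intCast_zmod_eq_zero_iff_dvd]
  exact hg

section

variable [Fact ℓ.Prime] [CharP (IsLocalRing.ResidueField A) ℓ]
  [Algebra (ZMod ℓ) (IsLocalRing.ResidueField A)]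

/-- The reduction of `W` mod `ℓ`, extended to the residue field, is a reduction of `W`. -/
theorem isReductionOf_reductionMod :
    IsReductionOf A ((W.map (Int.castRingHom ℚ))⁄Q̄)
      ((W.reductionMod ℓ)⁄(IsLocalRing.ResidueField A)) := by
  convert isReductionOf_rat W A
  change ((W.reductionMod ℓ).map _) = _
  rw [reductionMod, WeierstrassCurve.map_map]
  exact congrArg W.map (RingHom.ext_int _ _)

/-- The automorphism of the residue field induced by an element of the decomposition group. -/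
def residueAut (τ : A.decompositionSubgroup ℚ) :
    IsLocalRing.ResidueField A ≃ₐ[ZMod ℓ] IsLocalRing.ResidueField A :=
  AlgEquiv.ofRingEquiv
    (f := MulSemiringAction.toRingEquiv (A.decompositionSubgroup ℚ) (IsLocalRing.ResidueField A) τ)
    fun x => RingHom.congr_fun (Subsingleton.elim ((MulSemiringAction.toRingEquiv
      (A.decompositionSubgroup ℚ) (IsLocalRing.ResidueField A) τ).toRingHom.comp
      (algebraMap (ZMod ℓ) (IsLocalRing.ResidueField A))) (algebraMap _ _)) x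

@[simp] theorem residueAut_apply (τ : A.decompositionSubgroup ℚ)
    (x : IsLocalRing.ResidueField A) : residueAut (ℓ := ℓ) τ x = τ • x := rfl

variable [DecidableEq (IsLocalRing.ResidueField A)] (hℓ : ℓ.Prime) (hA : A.LiesOverPrime ℓ)
  (hg : W.IsGoodPrimeFor ℓ)

include hg in
theorem smoothlyReducing_reductionMod (P : QbarPoint W) :
    SmoothlyReducing A _ ((W.reductionMod ℓ)⁄(IsLocalRing.ResidueField A)) P := by
  refine smoothlyReducing_of_Δ_ne_zero isReductionOf_reductionMod ?_ P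
  change ((W.reductionMod ℓ).map _).Δ ≠ 0
  rw [map_Δ]
  exact (map_ne_zero_iff _ (RingHom.injective _)).2 (Δ_reductionMod_ne_zero hg)

/-- Reduction to the points of the curve mod `ℓ` over the residue field. -/
def modHom : QbarPoint W →+ ((W.reductionMod ℓ)⁄(IsLocalRing.ResidueField A)).Point where
  toFun := reduce A _ _
  map_zero' := rfl
  map_add' P Q := (reduce_add isReductionOf_reductionMod (smoothlyReducing_reductionMod hg P)
    (smoothlyReducing_reductionMod hg Q)).2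

include hℓ hA in
theorem eq_zero_of_modHom_eq_zero {n : ℕ} (hn : ¬ ℓ ∣ n) {P : QbarPoint W} (hP : n • P = 0)
    (h0 : modHom (A := A) hg P = 0) : P = 0 :=
  eq_zero_of_inKernel_of_nsmul_eq_zero isReductionOf_reductionMod
    ((reduce_eq_zero_iff (smoothlyReducing_reductionMod hg P)).1 h0)
    (valuation_natCast_eq_one hℓ hA hn) hP

/-- Reduction is equivariant for the decomposition group. -/
theorem modHom_smul (τ : A.decompositionSubgroup ℚ) (P : QbarPoint W) :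
    modHom (A := A) hg ((τ : Q̄ ≃ₐ[ℚ] Q̄) • P) = residueAut (ℓ := ℓ) τ • modHom (A := A) hg P := by
  rcases P with _ | ⟨a, b, hab⟩
  · rfl
  obtain ⟨hab', he⟩ : ∃ hab', (τ : Q̄ ≃ₐ[ℚ] Q̄) • (Affine.Point.some a b hab : QbarPoint W) =
      Affine.Point.some ((τ : Q̄ ≃ₐ[ℚ] Q̄) a) ((τ : Q̄ ≃ₐ[ℚ] Q̄) b) hab' := ⟨_, rfl⟩
  rw [he]
  simp only [modHom, AddMonoidHom.coe_mk, ZeroHom.coe_mk]
  by_cases ha : a ∈ A
  · rw [reduce_some_of_mem hab ha (smoothlyReducing_reductionMod hg (.some a b hab) ha),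
      reduce_some_of_mem hab' ((mem_iff_smul_mem τ a).2 ha)
        (smoothlyReducing_reductionMod hg (.some _ _ hab') ((mem_iff_smul_mem τ a).2 ha)),
      Affine.Point.algEquiv_smul_def, Affine.Point.map_some]
    simp only [Affine.Point.some.injEq]
    exact ⟨red_smul τ a, red_smul τ b⟩
  · rw [reduce_some_of_not_mem hab ha,
      reduce_some_of_not_mem hab' fun h => ha ((mem_iff_smul_mem τ a).1 h)]
    rfl

/-- Reduction on `n`-torsion. -/
def torsionMap (n : ℕ) : Submodule.torsionBy ℤ (QbarPoint W) (n : ℤ) →ₗ[ZMod n]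
    Submodule.torsionBy ℤ ((W.reductionMod ℓ)⁄(IsLocalRing.ResidueField A)).Point (n : ℤ) :=
  AddMonoidHom.toZModLinearMap n
    { toFun := fun x => ⟨modHom (A := A) hg x.1, by
        rw [Submodule.mem_torsionBy_iff, ← map_zsmul,
          (Submodule.mem_torsionBy_iff (n : ℤ) x.1).1 x.2, map_zero]⟩
      map_zero' := Subtype.ext (map_zero _)
      map_add' := fun x y => Subtype.ext (map_add (modHom (A := A) hg) _ _) }

include hℓ hA hg in
theorem exists_torsion_linearEquiv {n : ℕ} (hn : ¬ ℓ ∣ n) :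
    ∃ e : Submodule.torsionBy ℤ (QbarPoint W) (n : ℤ) ≃ₗ[ZMod n]
        Submodule.torsionBy ℤ ((W.reductionMod ℓ)⁄(IsLocalRing.ResidueField A)).Point (n : ℤ),
      ∀ x, (e x).1 = modHom (A := A) hg x.1 := by
  have hn0 : n ≠ 0 := fun h => hn (h ▸ dvd_zero ℓ)
  haveI : ((W.map (Int.castRingHom ℚ))⁄Q̄).IsElliptic := by
    rw [isElliptic_iff, isUnit_iff_ne_zero]
    change ((W.map (Int.castRingHom ℚ)).map (algebraMap ℚ Q̄)).Δ ≠ 0
    rw [map_Δ, map_Δ, eq_intCast, map_intCast]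
    exact_mod_cast Δ_ne_zero_of_isGoodPrimeFor hg
  haveI : ((W.reductionMod ℓ)⁄(IsLocalRing.ResidueField A)).IsElliptic := by
    rw [isElliptic_iff, isUnit_iff_ne_zero]
    change ((W.reductionMod ℓ).map _).Δ ≠ 0
    rw [map_Δ]
    exact (map_ne_zero_iff _ (RingHom.injective _)).2 (Δ_reductionMod_ne_zero hg)
  haveI := isAlgClosed_residueField A
  have hnk : (n : IsLocalRing.ResidueField A) ≠ 0 := by
    rw [ne_eq, CharP.cast_eq_zero_iff _ ℓ]; exact hn
  have hinj : Function.Injective (torsionMap (A := A) hg n) := by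
    rw [injective_iff_map_eq_zero]
    intro x hx
    refine Subtype.ext (eq_zero_of_modHom_eq_zero hℓ hA hg hn ?_ (congrArg Subtype.val hx))
    have := (Submodule.mem_torsionBy_iff (n : ℤ) x.1).1 x.2
    rwa [natCast_zsmul] at this
  haveI := EC.finite_torsionBy
    (W := ((W.reductionMod ℓ)⁄(IsLocalRing.ResidueField A)).toAffine) hnk
  have hbij : Function.Bijective (torsionMap (A := A) hg n) :=
    (hinj.bijective_of_nat_card_le (by
      rw [EC.card_torsionBy_Qbar hn0, EC.card_torsionBy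
        (W := ((W.reductionMod ℓ)⁄(IsLocalRing.ResidueField A)).toAffine) hnk]))
  exact ⟨LinearEquiv.ofBijective _ hbij, fun x => rfl⟩

include hℓ hA hg in
/-- Frobenius at `A` on `n`-torsion is conjugate to the Frobenius of the residue field. -/
theorem exists_conj_frobenius {n : ℕ} (hn : ¬ ℓ ∣ n) {σ : Q̄ ≃ₐ[ℚ] Q̄}
    (hσ : A.IsFrobeniusAt σ ℓ) :
    ∃ (φ : IsLocalRing.ResidueField A ≃ₐ[ZMod ℓ] IsLocalRing.ResidueField A)
      (e : Submodule.torsionBy ℤ (QbarPoint W) (n : ℤ) ≃ₗ[ZMod n]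
        Submodule.torsionBy ℤ ((W.reductionMod ℓ)⁄(IsLocalRing.ResidueField A)).Point (n : ℤ)),
      (∀ z, φ z = z ^ Nat.card (ZMod ℓ)) ∧
        Affine.Point.galoisRepModuleEnd (K := IsLocalRing.ResidueField A) (ZMod ℓ)
            (W.reductionMod ℓ) n φ
          = e.conj (Affine.Point.galoisRepModuleEnd (K := Q̄) ℚ
            (W.map (Int.castRingHom ℚ)) n σ) := by
  obtain ⟨hmem, hfr⟩ := hσ
  obtain ⟨e, he⟩ := exists_torsion_linearEquiv (W := W) hℓ hA hg hn
  refine ⟨residueAut (ℓ := ℓ) ⟨σ, hmem⟩, e, fun z => ?_, LinearMap.ext fun y => Subtype.ext ?_⟩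
  · rw [residueAut_apply, Nat.card_zmod]; exact hfr z
  · rw [LinearEquiv.conj_apply_apply, Affine.Point.galoisRepModuleEnd_apply,
      Affine.Point.galoisRepModuleEnd_apply, he]
    change residueAut (ℓ := ℓ) ⟨σ, hmem⟩ • y.1 = modHom (A := A) hg (σ • (e.symm y).1)
    rw [modHom_smul hg ⟨σ, hmem⟩, ← he, LinearEquiv.apply_symm_apply]

end

variable {σ : Q̄ ≃ₐ[ℚ] Q̄}

/-- A Frobenius element at a good prime satisfies `σ² - a σ + ℓ = 0` on torsion prime to `ℓ`. -/
theorem frobenius_relation' (hℓ : ℓ.Prime) (hA : A.LiesOverPrime ℓ) (hg : W.IsGoodPrimeFor ℓ)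
    (hσ : A.IsFrobeniusAt σ ℓ) {n : ℕ} (hn : ¬ ℓ ∣ n) {P : QbarPoint W} (hP : n • P = 0) :
    σ • σ • P - W.apOfModel ℓ • (σ • P) + (ℓ : ℤ) • P = 0 := by
  haveI := Fact.mk hℓ
  haveI := charP_residueField hℓ hA
  haveI := isAlgClosed_residueField A
  letI : Algebra (ZMod ℓ) (IsLocalRing.ResidueField A) := ZMod.algebra _ ℓ
  classical
  haveI : (W.reductionMod ℓ).IsElliptic :=
    (isElliptic_iff _).2 (isUnit_iff_ne_zero.2 (Δ_reductionMod_ne_zero hg))
  obtain ⟨hmem, hfr⟩ := hσ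
  have hn' : ∀ g : Q̄ ≃ₐ[ℚ] Q̄, n • (g • P) = 0 := fun g => by rw [smul_comm n g P, hP, smul_zero]
  refine eq_zero_of_modHom_eq_zero hℓ hA hg hn ?_ ?_
  · rw [nsmul_add, nsmul_sub, ← mul_smul σ σ P, hn', smul_comm n (W.apOfModel ℓ), hn', zsmul_zero,
      smul_comm n (ℓ : ℤ), hP, zsmul_zero, sub_zero, add_zero]
  · rw [map_add, map_sub, map_zsmul, map_zsmul, modHom_smul hg ⟨σ, hmem⟩,
      modHom_smul hg ⟨σ, hmem⟩]
    have := Weil.frobenius_sq_sub_trace_add (W.reductionMod ℓ) (residueAut (ℓ := ℓ) ⟨σ, hmem⟩)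
      (fun x => by rw [residueAut_apply, Nat.card_zmod]; exact hfr x) (modHom (A := A) hg P)
    rw [Nat.card_zmod] at this
    exact this

/-- A Frobenius element at a good prime satisfies `σ² - a σ + ℓ = 0` on `ℓ`-prime torsion of
prime power order. -/
theorem frobenius_relation (hℓ : ℓ.Prime) (hA : A.LiesOverPrime ℓ) (hg : W.IsGoodPrimeFor ℓ)
    (hσ : A.IsFrobeniusAt σ ℓ) {p k : ℕ} (hp : p.Prime) (hne : p ≠ ℓ) {P : QbarPoint W}
    (hP : (p ^ k) • P = 0) :
    σ • σ • P - W.apOfModel ℓ • (σ • P) + (ℓ : ℤ) • P = 0 :=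
  frobenius_relation' hℓ hA hg hσ
    (fun h => hne ((Nat.prime_dvd_prime_iff_eq hℓ hp).1 (hℓ.dvd_of_dvd_pow h)).symm) hP

/-- Trace and determinant of Frobenius on `E[n]` for a prime power `n` prime to `ℓ`. -/
theorem trace_det_frobenius (hℓ : ℓ.Prime) (hA : A.LiesOverPrime ℓ) (hg : W.IsGoodPrimeFor ℓ)
    (hσ : A.IsFrobeniusAt σ ℓ) {p k n : ℕ} (hp : p.Prime) (hne : p ≠ ℓ) (hn : n = p ^ k) :
    Affine.Point.galoisTrace (K := Q̄) ℚ (W.map (Int.castRingHom ℚ)) n σ =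
        (W.apOfModel ℓ : ZMod n) ∧
      LinearMap.det
          (Affine.Point.galoisRepModuleEnd (K := Q̄) ℚ (W.map (Int.castRingHom ℚ)) n σ) =
        (ℓ : ZMod n) := by
  subst hn
  haveI := Fact.mk hℓ
  haveI := charP_residueField hℓ hA
  haveI := isAlgClosed_residueField A
  letI : Algebra (ZMod ℓ) (IsLocalRing.ResidueField A) := ZMod.algebra _ ℓ
  classical
  haveI : (W.reductionMod ℓ).IsElliptic :=
    (isElliptic_iff _).2 (isUnit_iff_ne_zero.2 (Δ_reductionMod_ne_zero hg))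
  have hdvd : ¬ ℓ ∣ p ^ k := fun h =>
    hne ((Nat.prime_dvd_prime_iff_eq hℓ hp).1 (hℓ.dvd_of_dvd_pow h)).symm
  obtain ⟨φ, e, hφ, hconj⟩ := exists_conj_frobenius (W := W) hℓ hA hg hdvd hσ
  obtain ⟨E⟩ := EC.nonempty_torsionBy_linearEquiv (K := IsLocalRing.ResidueField A)
    (W := (W.reductionMod ℓ).toAffine) (n := p ^ k) (by
      rw [ne_eq, CharP.cast_eq_zero_iff _ ℓ]; exact hdvd)
  have hpk : (p : ZMod ℓ) ≠ 0 := by
    rw [ne_eq, ZMod.natCast_eq_zero_iff, Nat.prime_dvd_prime_iff_eq hℓ hp]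
    exact Ne.symm hne
  obtain ⟨htr, hdet⟩ := Weil.frobenius_matrix_trace_det (W.reductionMod ℓ) hp hpk k φ hφ
    (Module.Basis.ofEquivFun E)
  rw [← LinearMap.trace_eq_matrix_trace (ZMod (p ^ k)) (Module.Basis.ofEquivFun E), hconj,
    LinearMap.trace_conj'] at htr
  rw [LinearMap.det_toMatrix, hconj, LinearEquiv.conj_apply, LinearMap.comp_assoc,
    LinearMap.det_conj, Nat.card_zmod] at hdet
  exact ⟨htr, hdet⟩

/-- The trace of Frobenius on `E[p^k]`. -/
theorem galoisTrace_frobenius (hℓ : ℓ.Prime) (hA : A.LiesOverPrime ℓ) (hg : W.IsGoodPrimeFor ℓ)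
    (hσ : A.IsFrobeniusAt σ ℓ) {p k : ℕ} (hp : p.Prime) (hne : p ≠ ℓ) :
    Affine.Point.galoisTrace (K := Q̄) ℚ (W.map (Int.castRingHom ℚ)) (p ^ k) σ =
      (W.apOfModel ℓ : ZMod (p ^ k)) :=
  (trace_det_frobenius hℓ hA hg hσ hp hne rfl).1

/-- The trace of Frobenius on `E[p]`. -/
theorem galoisTrace_frobenius_prime (hℓ : ℓ.Prime) (hA : A.LiesOverPrime ℓ)
    (hg : W.IsGoodPrimeFor ℓ) (hσ : A.IsFrobeniusAt σ ℓ) {p : ℕ} (hp : p.Prime) (hne : p ≠ ℓ) :
    Affine.Point.galoisTrace (K := Q̄) ℚ (W.map (Int.castRingHom ℚ)) p σ =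
      (W.apOfModel ℓ : ZMod p) :=
  (trace_det_frobenius hℓ hA hg hσ hp hne (pow_one p).symm).1

/-- The determinant of Frobenius on `E[p^k]`. -/
theorem det_frobenius (hℓ : ℓ.Prime) (hA : A.LiesOverPrime ℓ) (hg : W.IsGoodPrimeFor ℓ)
    (hσ : A.IsFrobeniusAt σ ℓ) {p k : ℕ} (hp : p.Prime) (hne : p ≠ ℓ) :
    LinearMap.det
        (Affine.Point.galoisRepModuleEnd (K := Q̄) ℚ (W.map (Int.castRingHom ℚ)) (p ^ k) σ) =
      (ℓ : ZMod (p ^ k)) :=
  (trace_det_frobenius hℓ hA hg hσ hp hne rfl).2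

open Polynomial in
/-- The characteristic polynomial of Frobenius on `E[p]`. -/
theorem charpoly_frobenius (hℓ : ℓ.Prime) (hA : A.LiesOverPrime ℓ) (hg : W.IsGoodPrimeFor ℓ)
    (hσ : A.IsFrobeniusAt σ ℓ) {p : ℕ} [Fact p.Prime] (hne : p ≠ ℓ)
    [Module.Finite (ZMod p)
      (Submodule.torsionBy ℤ (QbarPoint W) (p : ℤ))] :
    (Affine.Point.galoisRepModuleEnd (K := Q̄) ℚ (W.map (Int.castRingHom ℚ)) p σ).charpoly =
      X ^ 2 - C (W.apOfModel ℓ : ZMod p) * X + C (ℓ : ZMod p) := by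
  haveI := Fact.mk hℓ
  haveI := charP_residueField hℓ hA
  haveI := isAlgClosed_residueField A
  letI : Algebra (ZMod ℓ) (IsLocalRing.ResidueField A) := ZMod.algebra _ ℓ
  classical
  haveI : (W.reductionMod ℓ).IsElliptic :=
    (isElliptic_iff _).2 (isUnit_iff_ne_zero.2 (Δ_reductionMod_ne_zero hg))
  have hp : p.Prime := Fact.out
  have hdvd : ¬ ℓ ∣ p := fun h => hne ((Nat.prime_dvd_prime_iff_eq hℓ hp).1 h).symm
  obtain ⟨φ, e, hφ, hconj⟩ := exists_conj_frobenius (W := W) hℓ hA hg hdvd hσ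
  haveI := Module.Finite.equiv e
  have hpk : (p : ZMod ℓ) ≠ 0 := by rw [ne_eq, ZMod.natCast_eq_zero_iff]; exact hdvd
  have h := Weil.frobenius_charpoly (W.reductionMod ℓ) (p := p) hpk φ hφ
  rw [hconj, LinearEquiv.charpoly_conj, Nat.card_zmod] at h
  exact h

/-- Curves with isomorphic mod `p` representations have congruent traces at common good primes. -/
theorem dvd_apOfModel_sub_of_equivariant {W W' : WeierstrassCurve ℤ} {p : ℕ} (hp : p.Prime)
    (e : Submodule.torsionBy ℤ (QbarPoint W) (p : ℤ) ≃+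
      Submodule.torsionBy ℤ (QbarPoint W') (p : ℤ))
    (he : ∀ (σ : Q̄ ≃ₐ[ℚ] Q̄) x, e (σ • x) = σ • e x)
    (hℓ : ℓ.Prime) (hne : p ≠ ℓ) (hg : W.IsGoodPrimeFor ℓ) (hg' : W'.IsGoodPrimeFor ℓ) :
    (p : ℤ) ∣ W'.apOfModel ℓ - W.apOfModel ℓ := by
  obtain ⟨A, σ, hA, hσ⟩ := Galois.exists_valuationSubring_isFrobeniusAt hℓ
  rw [← ZMod.intCast_eq_intCast_iff_dvd_sub, ← galoisTrace_frobenius_prime hℓ hA hg hσ hp hne,
    ← galoisTrace_frobenius_prime hℓ hA hg' hσ hp hne, Affine.Point.galoisTrace_def,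
    Affine.Point.galoisTrace_def]
  let el : Submodule.torsionBy ℤ (QbarPoint W) (p : ℤ) ≃ₗ[ZMod p]
      Submodule.torsionBy ℤ (QbarPoint W') (p : ℤ) :=
    LinearEquiv.ofBijective (AddMonoidHom.toZModLinearMap p e.toAddMonoidHom) e.bijective
  have : Affine.Point.galoisRepModuleEnd (K := Q̄) ℚ (W'.map (Int.castRingHom ℚ)) p σ =
      el.conj (Affine.Point.galoisRepModuleEnd (K := Q̄) ℚ (W.map (Int.castRingHom ℚ)) p σ) := by
    refine LinearMap.ext fun y => ?_
    obtain ⟨x, rfl⟩ := el.surjective y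
    rw [LinearEquiv.conj_apply_apply, LinearEquiv.symm_apply_apply,
      Affine.Point.galoisRepModuleEnd_apply, Affine.Point.galoisRepModuleEnd_apply]
    exact (he σ x).symm
  rw [this, LinearMap.trace_conj']

/-- Hasse's bound at good primes. -/
theorem apOfModel_sq_le (hℓ : ℓ.Prime) (hg : W.IsGoodPrimeFor ℓ) :
    W.apOfModel ℓ ^ 2 ≤ 4 * (ℓ : ℤ) := by
  haveI := Fact.mk hℓ
  classical
  haveI : (W.reductionMod ℓ).IsElliptic :=
    (isElliptic_iff _).2 (isUnit_iff_ne_zero.2 (Δ_reductionMod_ne_zero hg))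
  have h := Weil.traceOfFrobenius_sq_le (W.reductionMod ℓ)
  rwa [Nat.card_zmod] at h

end Fermat.Agent.ECRed
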