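/-
Independence of `apOfModel` of the integral model.
-/
import Fermat.Agent.ECRed.Good

set_option autoImplicit false

noncomputable section

namespace Fermat.Agent.ECRed

open WeierstrassCurve
open scoped WeierstrassCurve.Affine Fermat.Agent.Galois

/-- An admissible change of variables gives a bijection of the points of elliptic curves. -/
def variableChangePointEquiv {F : Type*} [Field F] (C : VariableChange F) (E : WeierstrassCurve F)
    (hΔ : E.Δ ≠ 0) : (C • E).toAffine.Point ≃ E.toAffine.Point where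
  toFun
    | .zero => .zero
    | .some x y h => .some ((C.u : F) ^ 2 * x + C.r) ((C.u : F) ^ 3 * y + (C.u : F) ^ 2 * C.s * x + C.t)
        ((Affine.equation_iff_nonsingular_of_Δ_ne_zero hΔ).1 (by
          have h' := (Affine.equation_iff' x y).1 h.1
          have hu := C.u.ne_zero
          simp only [variableChange_def, Units.val_inv_eq_inv_val] at h'
          rw [Affine.equation_iff']
          field_simp at h'
          linear_combination h'))
  invFun
    | .zero => .zero
    | .some x y h => .some ((C.u⁻¹ : Fˣ) ^ 2 * (x - C.r))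
        ((C.u⁻¹ : Fˣ) ^ 3 * (y - C.s * (x - C.r) - C.t))
        ((Affine.equation_iff_nonsingular_of_Δ_ne_zero (by
            rw [variableChange_Δ]; exact mul_ne_zero (pow_ne_zero _ C.u⁻¹.ne_zero) hΔ)).1 (by
          have h' := (Affine.equation_iff' x y).1 h.1
          have hu := C.u.ne_zero
          rw [Affine.equation_iff']
          simp only [variableChange_def, Units.val_inv_eq_inv_val]
          field_simp
          linear_combination h'))
  left_inv := by
    rintro (_ | ⟨x, y, h⟩)
    · rfl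
    · have hu := C.u.ne_zero
      simp only [Affine.Point.some.injEq, Units.val_inv_eq_inv_val]
      constructor <;> field_simp <;> ring
  right_inv := by
    rintro (_ | ⟨x, y, h⟩)
    · rfl
    · have hu := C.u.ne_zero
      simp only [Affine.Point.some.injEq, Units.val_inv_eq_inv_val]
      constructor <;> field_simp <;> ring

/-- The residue mod `ℓ` of a rational number. -/
private def ratMod (ℓ : ℕ) (q : ℚ) : ZMod ℓ := (q.num : ZMod ℓ) * (q.den : ZMod ℓ)⁻¹

/-- A rational number in a place over `ℓ` reduces into the prime field. -/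
theorem red_ratCast {ℓ : ℕ} [Fact ℓ.Prime] {A : ValuationSubring Q̄} (hA : A.LiesOverPrime ℓ)
    [CharP (IsLocalRing.ResidueField A) ℓ] {q : ℚ} (hq : algebraMap ℚ Q̄ q ∈ A) :
    ZMod.castHom (dvd_refl ℓ) (IsLocalRing.ResidueField A) (ratMod ℓ q) =
      red A (algebraMap ℚ Q̄ q) := by
  have hℓ : ℓ.Prime := Fact.out
  have hmul : algebraMap ℚ Q̄ q * (q.den : Q̄) = (q.num : Q̄) := by
    rw [← map_natCast (algebraMap ℚ Q̄), ← map_mul, Rat.mul_den_eq_num, map_intCast]
  have hden : ¬ ℓ ∣ q.den := by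
    intro hd
    have hn : ¬ (ℓ : ℤ) ∣ q.num := by
      intro hn
      exact hℓ.not_dvd_one (q.reduced ▸ Nat.dvd_gcd (Int.natCast_dvd.1 hn) hd)
    rw [← Galois.intCast_mem_nonunits_iff (K := Q̄) hℓ hA, ValuationSubring.mem_nonunits_iff,
      ← hmul, map_mul] at hn
    refine hn (lt_of_le_of_lt (mul_le_of_le_one_left' (val_le_one hq)) ?_)
    rw [← ValuationSubring.mem_nonunits_iff, ← Int.cast_natCast,
      Galois.intCast_mem_nonunits_iff hℓ hA]
    exact_mod_cast hd
  have h2 : red A (algebraMap ℚ Q̄ q) * (q.den : IsLocalRing.ResidueField A) =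
      (q.num : IsLocalRing.ResidueField A) := by
    have hd : red A (q.den : Q̄) = (q.den : IsLocalRing.ResidueField A) := by
      rw [← map_natCast A.subtype, ← map_natCast (IsLocalRing.residue A)]
      exact red_coe (A := A) (q.den : A)
    have hn : red A (q.num : Q̄) = (q.num : IsLocalRing.ResidueField A) := by
      rw [← map_intCast A.subtype, ← map_intCast (IsLocalRing.residue A)]
      exact red_coe (A := A) (q.num : A)
    rw [← hd, ← red_mul hq (natCast_mem A _), hmul, hn]
  have hd0 : (q.den : IsLocalRing.ResidueField A) ≠ 0 := by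
    have := intCast_residueField_ne_zero hℓ hA (n := (q.den : ℤ)) (by exact_mod_cast hden)
    rwa [Int.cast_natCast] at this
  rw [ratMod, map_mul, map_intCast, map_inv₀, map_natCast, ← h2, mul_assoc, mul_inv_cancel₀ hd0,
    mul_one]

variable {A : ValuationSubring Q̄}

local notation "v" => A.valuation

/-- Integrality of a change of variables between two models integral and with unit discriminants
at a place. -/
theorem variableChange_integral {E E' : WeierstrassCurve Q̄} {Ek Ek'}
    (hE : IsReductionOf A E Ek) (hE' : IsReductionOf A E' Ek') (hΔ : v E.Δ = 1) (hΔ' : v E'.Δ = 1)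
    (C : VariableChange Q̄) (hC : C • E = E') :
    v (C.u : Q̄) = 1 ∧ C.r ∈ A ∧ C.s ∈ A ∧ C.t ∈ A := by
  have hu : v (C.u : Q̄) = 1 := by
    have h := congrArg (fun E => v (WeierstrassCurve.Δ E)) hC
    simp only [variableChange_Δ, Units.val_inv_eq_inv_val, map_mul, map_pow, map_inv₀, hΔ, hΔ',
      mul_one] at h
    rw [inv_pow, inv_eq_one, pow_eq_one_iff_of_nonneg zero_le (by norm_num)] at h
    exact h
  have hu0 := C.u.ne_zero
  have huA : ∀ (n : ℕ) {z : Q̄}, z ∈ A → (C.u : Q̄) ^ n * z ∈ A := fun n z hz =>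
    mul_mem (pow_mem (A.mem_of_valuation_le_one _ hu.le) n) hz
  obtain ⟨E₀, rfl, -⟩ := hE.exists_model
  obtain ⟨E₀', rfl, -⟩ := hE'.exists_model
  have hA' : ∀ z : A, A.subtype z ∈ A := fun z => z.2
  have hr : C.r ∈ A := by
    by_contra hr
    have h1 := one_lt_val.2 hr
    have e6 : 4 * C.r ^ 3 = (C.u : Q̄) ^ 6 * (E₀'.map A.subtype).b₆ - (E₀.map A.subtype).b₆
        - 2 * C.r * (E₀.map A.subtype).b₄ - C.r ^ 2 * (E₀.map A.subtype).b₂ := by
      rw [← hC, variableChange_b₆, Units.val_inv_eq_inv_val]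
      field_simp
      ring
    have e8 : 3 * C.r ^ 4 = (C.u : Q̄) ^ 8 * (E₀'.map A.subtype).b₈ - (E₀.map A.subtype).b₈
        - 3 * C.r * (E₀.map A.subtype).b₆ - 3 * C.r ^ 2 * (E₀.map A.subtype).b₄
        - C.r ^ 3 * (E₀.map A.subtype).b₂ := by
      rw [← hC, variableChange_b₈, Units.val_inv_eq_inv_val]
      field_simp
      ring
    simp only [map_b₂, map_b₄, map_b₆, map_b₈] at e6 e8
    have hp : ∀ {i k : ℕ}, i ≤ k → v (C.r ^ i) ≤ v C.r ^ k := fun h => by
      rw [map_pow]; exact pow_le_pow_right₀ h1.le h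
    have hb : ∀ {k : ℕ} {z : Q̄}, z ∈ A → v z ≤ v C.r ^ k := fun hz =>
      (val_le_one hz).trans (one_le_pow₀ h1.le)
    have h6 : v (4 * C.r ^ 3) ≤ v C.r ^ 2 := by
      rw [e6]
      refine Valuation.map_sub_le _ (Valuation.map_sub_le _ (Valuation.map_sub_le _
        (hb (huA 6 (hA' _))) (hb (hA' _))) ?_) ?_
      · rw [show ∀ z : Q̄, 2 * C.r * z = (2 * z) * C.r from fun z => by ring]
        exact mul_mem_val (mul_mem (natCast_mem A 2) (hA' _)) (le_self_pow₀ h1.le (by norm_num))
      · rw [mul_comm]; exact mul_mem_val (hA' _) (hp le_rfl)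
    have h8 : v (3 * C.r ^ 4) ≤ v C.r ^ 3 := by
      rw [e8]
      refine Valuation.map_sub_le _ (Valuation.map_sub_le _ (Valuation.map_sub_le _
        (Valuation.map_sub_le _ (hb (huA 8 (hA' _))) (hb (hA' _))) ?_) ?_) ?_
      · rw [show ∀ z : Q̄, 3 * C.r * z = (3 * z) * C.r from fun z => by ring]
        exact mul_mem_val (mul_mem (natCast_mem A 3) (hA' _)) (le_self_pow₀ h1.le (by norm_num))
      · rw [show ∀ z : Q̄, 3 * C.r ^ 2 * z = (3 * z) * C.r ^ 2 from fun z => by ring]
        exact mul_mem_val (mul_mem (natCast_mem A 3) (hA' _)) (hp (by norm_num))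
      · rw [mul_comm]; exact mul_mem_val (hA' _) (hp le_rfl)
    rw [map_mul, map_pow] at h6 h8
    have h34 : v (4 : Q̄) = 1 ∨ v (3 : Q̄) = 1 := by
      by_contra h
      rw [not_or] at h
      have h4 : v (4 : Q̄) < 1 := lt_of_le_of_ne (val_le_one (natCast_mem A 4)) h.1
      have h3 : v (3 : Q̄) < 1 := lt_of_le_of_ne (val_le_one (natCast_mem A 3)) h.2
      have := Valuation.map_sub_lt _ h4 h3
      norm_num at this
    rcases h34 with h | h
    · rw [h, one_mul] at h6
      exact absurd h6 (not_le.2 (pow_lt_pow_right₀ h1 (by norm_num)))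
    · rw [h, one_mul] at h8
      exact absurd h8 (not_le.2 (pow_lt_pow_right₀ h1 (by norm_num)))
  have hs : C.s ∈ A := by
    by_contra hs
    have h1 := one_lt_val.2 hs
    have e : C.s ^ 2 = (E₀.map A.subtype).a₂ - C.s * (E₀.map A.subtype).a₁ + 3 * C.r
        - (C.u : Q̄) ^ 2 * (E₀'.map A.subtype).a₂ := by
      rw [← hC, variableChange_a₂, Units.val_inv_eq_inv_val]
      field_simp
      ring
    have h2 : v (C.s ^ 2) ≤ v C.s := by
      rw [e]
      refine Valuation.map_sub_le _ (Valuation.map_add_le _ (Valuation.map_sub_le _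
        ((val_le_one (hA' _)).trans h1.le) ?_) ((val_le_one (mul_mem (natCast_mem A 3) hr)).trans h1.le))
        ((val_le_one (huA 2 (hA' _))).trans h1.le)
      rw [mul_comm]; exact mul_mem_val (hA' _) le_rfl
    rw [map_pow] at h2
    exact absurd h2 (not_le.2 (lt_self_pow₀ h1 (by norm_num)))
  refine ⟨hu, hr, hs, ?_⟩
  by_contra ht
  have h1 := one_lt_val.2 ht
  have e : C.t ^ 2 = (E₀.map A.subtype).a₆ + C.r * (E₀.map A.subtype).a₄
      + C.r ^ 2 * (E₀.map A.subtype).a₂ + C.r ^ 3 - (C.u : Q̄) ^ 6 * (E₀'.map A.subtype).a₆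
      - C.t * ((E₀.map A.subtype).a₃ + C.r * (E₀.map A.subtype).a₁) := by
    rw [← hC, variableChange_a₆, Units.val_inv_eq_inv_val]
    field_simp
    ring
  have h2 : v (C.t ^ 2) ≤ v C.t := by
    rw [e]
    refine Valuation.map_sub_le _ ((val_le_one (sub_mem (add_mem (add_mem (add_mem (hA' _)
      (mul_mem hr (hA' _))) (mul_mem (pow_mem hr 2) (hA' _))) (pow_mem hr 3))
      (huA 6 (hA' _)))).trans h1.le) ?_
    rw [mul_comm]; exact mul_mem_val (add_mem (hA' _) (mul_mem hr (hA' _))) le_rfl
  rw [map_pow] at h2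
  exact absurd h2 (not_le.2 (lt_self_pow₀ h1 (by norm_num)))

variable {ℓ : ℕ}

/-- `apOfModel` only depends on the curve over `ℚ`, at primes good for both models. -/
theorem apOfModel_eq_of_variableChange {W W' : WeierstrassCurve ℤ} (C : VariableChange ℚ)
    (hC : C • W.map (Int.castRingHom ℚ) = W'.map (Int.castRingHom ℚ))
    (hℓ : ℓ.Prime) (hg : W.IsGoodPrimeFor ℓ) (hg' : W'.IsGoodPrimeFor ℓ) :
    W.apOfModel ℓ = W'.apOfModel ℓ := by
  haveI := Fact.mk hℓ
  obtain ⟨A, hA⟩ := Galois.exists_liesOverPrime hℓ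
  haveI : CharP (IsLocalRing.ResidueField A) ℓ := charP_residueField hℓ hA
  have hΔ : ∀ {V : WeierstrassCurve ℤ}, V.IsGoodPrimeFor ℓ →
      A.valuation ((V.map (Int.castRingHom ℚ))⁄Q̄).Δ = 1 := by
    intro V hV
    change A.valuation ((V.map (Int.castRingHom ℚ)).map (algebraMap ℚ Q̄)).Δ = 1
    rw [map_Δ, map_Δ, eq_intCast, map_intCast]
    exact le_antisymm (val_le_one (intCast_mem A _))
      (not_lt.1 fun h => hV ((Galois.intCast_mem_nonunits_iff hℓ hA _).1 h))
  set C' : VariableChange Q̄ := C.map (algebraMap ℚ Q̄) with hC'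
  have hCQ : C' • ((W.map (Int.castRingHom ℚ))⁄Q̄) = (W'.map (Int.castRingHom ℚ))⁄Q̄ := by
    change C.map (algebraMap ℚ Q̄) • (W.map (Int.castRingHom ℚ)).map (algebraMap ℚ Q̄) = _
    rw [map_variableChange, hC]
    rfl
  obtain ⟨hu, hr, hs, ht⟩ := variableChange_integral (isReductionOf_rat W A) (isReductionOf_rat W' A)
    (hΔ hg) (hΔ hg') C' hCQ
  have huA : algebraMap ℚ Q̄ (C.u : ℚ) ∈ A := A.mem_of_valuation_le_one _ hu.le
  set f : ZMod ℓ →+* IsLocalRing.ResidueField A := ZMod.castHom (dvd_refl ℓ) _ with hf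
  have hu0 : ratMod ℓ (C.u : ℚ) ≠ 0 := fun h0 => by
    have := red_ratCast hA huA
    rw [h0, map_zero, eq_comm, red_eq_zero_iff huA] at this
    exact (this.ne hu).elim
  set Cb : VariableChange (ZMod ℓ) :=
    ⟨Units.mk0 _ hu0, ratMod ℓ C.r, ratMod ℓ C.s, ratMod ℓ C.t⟩ with hCb
  have hW : Cb • W.reductionMod ℓ = W'.reductionMod ℓ := by
    refine WeierstrassCurve.map_injective f.injective ?_
    let uA : Aˣ :=
      IsUnit.unit (a := (⟨_, huA⟩ : A)) ((A.valuation_eq_one_iff ⟨_, huA⟩).2 hu)
    let CA : VariableChange A := ⟨uA, ⟨_, hr⟩, ⟨_, hs⟩, ⟨_, ht⟩⟩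
    have hCA : CA • W.map (Int.castRingHom A) = W'.map (Int.castRingHom A) := by
      refine WeierstrassCurve.map_injective A.subtype_injective ?_
      change (CA • W.map (Int.castRingHom A)).map A.subtype =
        (W'.map (Int.castRingHom A)).map A.subtype
      have h1 : CA.map A.subtype = C' := by
        ext <;> rfl
      have h2 : ∀ V : WeierstrassCurve ℤ, (V.map (Int.castRingHom A)).map A.subtype =
          (V.map (Int.castRingHom ℚ))⁄Q̄ := fun V => by
        change _ = (V.map (Int.castRingHom ℚ)).map (algebraMap ℚ Q̄)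
        rw [WeierstrassCurve.map_map, WeierstrassCurve.map_map]
        exact congrArg V.map (RingHom.ext_int _ _)
      rw [← map_variableChange, h1, h2, h2, hCQ]
    have h3 : Cb.map f = CA.map (IsLocalRing.residue A) := by
      ext
      · exact (red_ratCast hA huA).trans (red_coe (A := A) ⟨_, huA⟩)
      · exact (red_ratCast hA hr).trans (red_coe (A := A) ⟨_, hr⟩)
      · exact (red_ratCast hA hs).trans (red_coe (A := A) ⟨_, hs⟩)
      · exact (red_ratCast hA ht).trans (red_coe (A := A) ⟨_, ht⟩)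
    have h4 : ∀ V : WeierstrassCurve ℤ, (V.reductionMod ℓ).map f =
        (V.map (Int.castRingHom A)).map (IsLocalRing.residue A) := fun V => by
      rw [reductionMod, WeierstrassCurve.map_map, WeierstrassCurve.map_map]
      exact congrArg V.map (RingHom.ext_int _ _)
    change (Cb • W.reductionMod ℓ).map f = (W'.reductionMod ℓ).map f
    rw [← map_variableChange, h3, h4, h4, map_variableChange, hCA]
  have hΔW : (W.reductionMod ℓ).Δ ≠ 0 := by
    rw [reductionMod, map_Δ, eq_intCast, ne_eq, ZMod.intCast_zmod_eq_zero_iff_dvd]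
    exact hg
  rw [apOfModel, apOfModel, traceOfFrobenius, traceOfFrobenius, WeierstrassCurve.card,
    WeierstrassCurve.card, ← hW,
    Nat.card_congr (variableChangePointEquiv Cb (W.reductionMod ℓ) hΔW)]

end Fermat.Agent.ECRed
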