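/-
Reduction of integral Weierstrass curves at good primes: everything.
-/
import Fermat.Agent.ECRed.Frobenius
import Fermat.Agent.ECRed.ModelChange
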